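import Mathlib.Analysis.Fourier.LpSpace
import Mathlib.Analysis.Distribution.AEEqOfIntegralContDiff

/-!
# Plancherel's identity for integrable square integrable functions on the line

Mathlib defines the Fourier transform on `L²` by continuity. For a function which is also
integrable it agrees almost everywhere with the Fourier integral, hence the identity
`∫ ‖g‖² = ∫ ‖𝓕 g‖²`.
-/

set_option autoImplicit false

noncomputable section

namespace FA.Halasz

open MeasureTheory FourierTransform SchwartzMap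
open scoped ENNReal ContDiff RealInnerProductSpace

/-- The `L²` Fourier transform of an integrable function is its Fourier integral. -/
theorem fourier_toLp_ae_eq {g : ℝ → ℂ} (h1 : Integrable g) (h2 : MemLp g 2) :
    (𝓕 (h2.toLp g) : Lp ℂ 2 (volume : Measure ℝ)) =ᵐ[volume] 𝓕 g := by
  have hc : Continuous (𝓕 g) :=
    VectorFourier.fourierIntegral_continuous Real.continuous_fourierChar
      (L := innerₗ ℝ) continuous_inner h1
  refine ae_eq_of_integral_contDiff_smul_eq
    ((Lp.memLp _).locallyIntegrable one_le_two) hc.locallyIntegrable fun φ hφ hφc => ?_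
  set ψ : 𝓢(ℝ, ℂ) := (hφc.comp_left Complex.ofReal_zero).toSchwartzMap
    (Complex.ofRealCLM.contDiff.comp hφ) with hψ
  have hψx : ∀ x, ψ x = (φ x : ℂ) := fun x => rfl
  calc ∫ x, φ x • (𝓕 (h2.toLp g) : Lp ℂ 2 (volume : Measure ℝ)) x
      = ∫ x, ψ x • (𝓕 (h2.toLp g) : Lp ℂ 2 (volume : Measure ℝ)) x := by
        simp only [hψx, Complex.real_smul, smul_eq_mul]
    _ = Lp.toTemperedDistribution (𝓕 (h2.toLp g)) ψ :=
        (Lp.toTemperedDistribution_apply _ _).symm
    _ = Lp.toTemperedDistribution (h2.toLp g) (𝓕 ψ) := by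
        rw [← Lp.fourier_toTemperedDistribution_eq, TemperedDistribution.fourier_apply]
    _ = ∫ x, 𝓕 (ψ : ℝ → ℂ) x • g x := by
        rw [Lp.toTemperedDistribution_apply]
        refine integral_congr_ae ?_
        filter_upwards [h2.coeFn_toLp] with x hx
        rw [hx, SchwartzMap.fourier_coe]
    _ = ∫ x, ψ x • 𝓕 g x :=
        (VectorFourier.integral_fourierIntegral_smul_eq_flip Real.continuous_fourierChar
          (L := innerₗ ℝ) continuous_inner ψ.integrable h1).trans (by rw [flip_innerₗ]; rfl)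
    _ = ∫ x, φ x • 𝓕 g x := by simp only [hψx, Complex.real_smul, smul_eq_mul]

/-- **Plancherel's identity** for `g ∈ L¹ ∩ L²`. -/
theorem lintegral_enorm_fourier_sq {g : ℝ → ℂ} (h1 : Integrable g) (h2 : MemLp g 2) :
    ∫⁻ x, ‖𝓕 g x‖ₑ ^ 2 = ∫⁻ x, ‖g x‖ₑ ^ 2 := by
  have key : ∀ f : Lp ℂ 2 (volume : Measure ℝ),
      eLpNorm f 2 volume = (∫⁻ x, ‖f x‖ₑ ^ 2) ^ (1 / 2 : ℝ) := fun f => by
    rw [eLpNorm_eq_lintegral_rpow_enorm_toReal two_ne_zero ENNReal.ofNat_ne_top]
    simp
  have h := Lp.norm_fourier_eq (h2.toLp g)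
  rw [Lp.norm_def, Lp.norm_def,
    ENNReal.toReal_eq_toReal_iff' (Lp.eLpNorm_ne_top _) (Lp.eLpNorm_ne_top _), key, key] at h
  have h' := (ENNReal.rpow_left_injective (by norm_num : (1 / 2 : ℝ) ≠ 0)) h
  rw [lintegral_congr_ae (f := fun x => ‖(h2.toLp g) x‖ₑ ^ 2)
      (g := fun x => ‖g x‖ₑ ^ 2),
    lintegral_congr_ae (f := fun x => ‖(𝓕 (h2.toLp g) : Lp ℂ 2 (volume : Measure ℝ)) x‖ₑ ^ 2)
      (g := fun x => ‖𝓕 g x‖ₑ ^ 2)] at h'
  · exact h'
  · filter_upwards [fourier_toLp_ae_eq h1 h2] with x hx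
    rw [hx]
  · filter_upwards [h2.coeFn_toLp] with x hx
    rw [hx]

end FA.Halasz
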