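import Fermat.Agent.Halasz.Average
import Fermat.Agent.PrimesMinusOne.TotientSum
import Fermat.Agent.Root.SummaryPrimeNumberTheorem
import Mathlib.NumberTheory.ArithmeticFunction.Misc

/-!
# Halász's theorem for completely multiplicative functions

`∑_{k ≤ N} a k log k = ∑_{m ≤ N} a m Λ m ∑_{k ≤ N / m} a k`. Short intervals and the prime number
theorem turn the right side into `N` times the logarithmic average of `‖∑_{k ≤ n} a k‖ / n`,
which is `o (log N)`.
-/

set_option autoImplicit false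

noncomputable section

namespace FA.Halasz

open Filter Topology Finset
open scoped ArithmeticFunction.vonMangoldt LSeries.notation

variable {a : ℕ →*₀ ℂ}

theorem partialSum_logTwist (a : ℕ →*₀ ℂ) (N : ℕ) :
    partialSum (logTwist a) N =
      ∑ m ∈ Icc 1 N, mangoldtTwist a m * partialSum a (N / m) := by
  have h := ArithmeticFunction.sum_Ioc_mul_eq_sum_sum
    (toArithmeticFunction (mangoldtTwist a)) (toArithmeticFunction (⇑a)) N
  have e : ∀ n : ℕ, (toArithmeticFunction (mangoldtTwist a) * toArithmeticFunction (⇑a)) n =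
      logTwist a n := fun n => congrFun (mangoldtTwist_convolution a) n
  have e2 : ∀ (f : ℕ → ℂ) (n : ℕ), n ≠ 0 → toArithmeticFunction f n = f n :=
    fun f n hn => if_neg hn
  simp only [e] at h
  simp only [← Icc_add_one_left_eq_Ioc, zero_add] at h
  rw [partialSum, h]
  refine sum_congr rfl fun m hm => ?_
  rw [mem_Icc] at hm
  rw [e2 _ m (by omega), partialSum]
  exact congrArg _ (sum_congr rfl fun k hk => e2 _ k (by rw [mem_Icc] at hk; omega))

theorem norm_partialSum_mul_log_le_sum (ha : ∀ n, ‖a n‖ ≤ 1) (N : ℕ) :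
    ‖partialSum a N‖ * Real.log N ≤
      N + ∑ m ∈ Icc 1 N, Λ m * ‖partialSum a (N / m)‖ := by
  refine (norm_partialSum_mul_log_le ha N).trans ?_
  rw [add_comm, partialSum_logTwist]
  refine add_le_add le_rfl ((norm_sum_le _ _).trans (sum_le_sum fun m _ => ?_))
  rw [norm_mul, mangoldtTwist, norm_mul, Complex.norm_real,
    Real.norm_of_nonneg ArithmeticFunction.vonMangoldt_nonneg]
  exact mul_le_mul_of_nonneg_right
    (mul_le_of_le_one_left ArithmeticFunction.vonMangoldt_nonneg (ha m)) (norm_nonneg _)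

theorem mul_norm_partialSum_le (ha : ∀ n, ‖a n‖ ≤ 1) (q h : ℕ) :
    (h : ℝ) * ‖partialSum a q‖ ≤ (∑ n ∈ Ioc q (q + h), ‖partialSum a n‖) + (h : ℝ) * h := by
  have h1 : ∀ n ∈ Ioc q (q + h), ‖partialSum a q‖ ≤ ‖partialSum a n‖ + h := by
    intro n hn
    rw [mem_Ioc] at hn
    have hsub : Icc 1 q ⊆ Icc 1 n := Icc_subset_Icc le_rfl hn.1.le
    have e : partialSum a q = partialSum a n - ∑ k ∈ Icc 1 n \ Icc 1 q, a k := by
      rw [eq_sub_iff_add_eq, add_comm, partialSum, partialSum, sum_sdiff hsub]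
    rw [e]
    refine (norm_sub_le _ _).trans (add_le_add le_rfl ?_)
    refine (norm_sum_le _ _).trans ((sum_le_card_nsmul _ _ 1 fun k _ => ha k).trans ?_)
    rw [nsmul_eq_mul, mul_one, card_sdiff_of_subset hsub, Nat.card_Icc, Nat.card_Icc]
    exact_mod_cast (by omega : n + 1 - 1 - (q + 1 - 1) ≤ h)
  have h2 := sum_le_sum h1
  rw [sum_const, Nat.card_Ioc, Nat.add_sub_cancel_left, nsmul_eq_mul, sum_add_distrib, sum_const,
    Nat.card_Ioc, Nat.add_sub_cancel_left, nsmul_eq_mul] at h2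
  exact h2

theorem sum_vonMangoldt_div_le {N : ℕ} (hN : 1 ≤ N) {s : Finset ℕ} (hs : s ⊆ Ioc 0 N) :
    ∑ m ∈ s, Λ m / m ≤ Real.log N + 6 := by
  refine (sum_le_sum_of_subset_of_nonneg hs fun m _ _ => by
    have := ArithmeticFunction.vonMangoldt_nonneg (n := m)
    positivity).trans ?_
  linarith [(abs_le.1 (PrimesMinusOne.abs_sum_vonMangoldt_div_sub_le hN)).2]

theorem sum_vonMangoldt_window_le {ε a₀ : ℝ} (hε : 0 < ε) (hε1 : ε ≤ 1)
    (h : ∀ x ≥ a₀, |Chebyshev.psi x - x| ≤ ε / 2 * x) (s : Finset ℕ) {x : ℝ} (hx : 0 ≤ x)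
    (hs : ∀ m ∈ s, x < m ∧ (m : ℝ) ≤ x * (1 + 2 * ε))
    (hne : s.Nonempty → a₀ ≤ x) : ∑ m ∈ s, Λ m ≤ 4 * ε * x := by
  rcases s.eq_empty_or_nonempty with rfl | hs'
  · rw [sum_empty]
    positivity
  have hx0 := hne hs'
  have hsub : s ⊆ Ioc ⌊x⌋₊ ⌊x * (1 + 2 * ε)⌋₊ := fun m hm => by
    rw [mem_Ioc]
    exact ⟨(Nat.floor_lt hx).2 (hs m hm).1, Nat.le_floor (hs m hm).2⟩
  refine (sum_le_sum_of_subset_of_nonneg hsub fun m _ _ =>
    ArithmeticFunction.vonMangoldt_nonneg).trans ?_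
  have hle : x ≤ x * (1 + 2 * ε) := le_mul_of_one_le_right hx (by linarith)
  have e : Chebyshev.psi (x * (1 + 2 * ε)) =
      Chebyshev.psi x + ∑ m ∈ Ioc ⌊x⌋₊ ⌊x * (1 + 2 * ε)⌋₊, Λ m :=
    (sum_Ioc_consecutive (fun m => Λ m) (Nat.zero_le _) (Nat.floor_le_floor hle)).symm
  have h1 := abs_le.1 (h x hx0)
  have h2 := abs_le.1 (h _ (le_trans hx0 hle))
  nlinarith [mul_le_mul_of_nonneg_left (mul_le_of_le_one_right hε.le hε1) hx]

/-- The middle range `M₀ < m`, `Q < N / m`. -/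
theorem sum_middle_le (ha : ∀ n, ‖a n‖ ≤ 1) {ε a₀ : ℝ} (hε : 0 < ε) (hε4 : ε ≤ 1 / 4)
    (h : ∀ x ≥ a₀, |Chebyshev.psi x - x| ≤ ε / 2 * x) {Q M₀ : ℕ} (hQ : 1 / ε ≤ Q) (hM : 2 ≤ M₀)
    (hM' : 2 * a₀ ≤ M₀) {N : ℕ} (hN : 1 ≤ N) :
    ∑ m ∈ (Icc 1 N).filter (fun m => M₀ < m ∧ Q < N / m), Λ m * ‖partialSum a (N / m)‖ ≤
      2 * ε * N * (Real.log N + 6) + 16 * N * logAverage a N := by
  set P := (Icc 1 N).filter (fun m => M₀ < m ∧ Q < N / m) with hP
  set hh : ℕ → ℕ := fun m => ⌈ε * (N / m : ℕ)⌉₊ with hhh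
  have hN0 : (0 : ℝ) < N := by exact_mod_cast hN
  have facts : ∀ m ∈ P, (0 : ℝ) < m ∧ ε * (N / m : ℕ) ≤ hh m ∧
      (hh m : ℝ) ≤ 2 * ε * (N / m : ℕ) ∧ ((N / m : ℕ) : ℝ) * m ≤ N ∧
      (N : ℝ) < ((N / m : ℕ) + 1) * m ∧ (1 : ℝ) ≤ (N / m : ℕ) ∧ (M₀ : ℝ) < m := by
    intro m hm
    rw [hP, mem_filter, mem_Icc] at hm
    obtain ⟨⟨hm1, hm2⟩, hm3, hm4⟩ := hm
    have hq1 : (Q : ℝ) + 1 ≤ (N / m : ℕ) := by exact_mod_cast hm4
    have hεq : 1 < ε * (N / m : ℕ) := by
      rw [div_le_iff₀ hε] at hQ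
      nlinarith
    refine ⟨by exact_mod_cast hm1, Nat.le_ceil _, ?_, ?_, ?_, ?_, by exact_mod_cast hm3⟩
    · have := Nat.ceil_lt_add_one (by positivity : 0 ≤ ε * (N / m : ℕ))
      linarith
    · exact_mod_cast Nat.div_mul_le_self N m
    · exact_mod_cast Nat.lt_mul_of_div_lt (Nat.lt_succ_self (N / m)) hm1
    · exact_mod_cast (by omega : 1 ≤ N / m)
  have step1 : ∀ m ∈ P, Λ m * ‖partialSum a (N / m)‖ ≤ 2 * ε * N * (Λ m / m) +
      ∑ n ∈ Icc 1 N, if n ∈ Ioc (N / m) (N / m + hh m) then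
        Λ m * (4 / (ε * n) * ‖partialSum a n‖) else 0 := by
    intro m hm
    obtain ⟨hm0, hc1, hc2, hq, hq', hq1, hM0⟩ := facts m hm
    set q := N / m with hqdef
    have hh0 : (0 : ℝ) < hh m := lt_of_lt_of_le (by positivity) hc1
    have hsub : Ioc q (q + hh m) ⊆ Icc 1 N := by
      intro n hn
      rw [mem_Ioc] at hn
      rw [mem_Icc]
      refine ⟨(Nat.zero_le _).trans_lt hn.1, ?_⟩
      have h1 : (n : ℝ) ≤ q + hh m := by exact_mod_cast hn.2
      have h2 : (2 : ℝ) ≤ M₀ := by exact_mod_cast hM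
      have : (n : ℝ) ≤ N := by nlinarith
      exact_mod_cast this
    rw [sum_ite_mem, inter_eq_right.2 hsub]
    have h1 := mul_norm_partialSum_le ha q (hh m)
    have h2 : ‖partialSum a q‖ ≤
        (∑ n ∈ Ioc q (q + hh m), ‖partialSum a n‖ / hh m) + hh m := by
      rw [← sum_div, ← add_le_add_iff_right 0]
      simp only [add_zero]
      rw [div_add' _ _ _ hh0.ne', le_div_iff₀ hh0, mul_comm]
      exact h1
    refine (mul_le_mul_of_nonneg_left h2 ArithmeticFunction.vonMangoldt_nonneg).trans ?_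
    rw [mul_add, add_comm, mul_sum]
    refine add_le_add ?_ (sum_le_sum fun n hn => ?_)
    · rw [← mul_div_assoc, le_div_iff₀ hm0]
      have := ArithmeticFunction.vonMangoldt_nonneg (n := m)
      nlinarith [mul_le_mul_of_nonneg_left hq (by positivity : 0 ≤ 2 * ε * Λ m),
        mul_le_mul_of_nonneg_left hc2 (by positivity : 0 ≤ Λ m * m)]
    · rw [mem_Ioc] at hn
      have hn1 : (n : ℝ) ≤ q + hh m := by exact_mod_cast hn.2
      have hn0 : (0 : ℝ) < n := by exact_mod_cast (Nat.zero_le _).trans_lt hn.1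
      refine mul_le_mul_of_nonneg_left ?_ ArithmeticFunction.vonMangoldt_nonneg
      rw [div_mul_eq_mul_div, div_le_div_iff₀ hh0 (by positivity)]
      have : ε * n ≤ 4 * hh m := by nlinarith
      nlinarith [norm_nonneg (partialSum a n)]
  refine (sum_le_sum step1).trans ?_
  rw [sum_add_distrib, ← mul_sum, sum_comm]
  refine add_le_add (mul_le_mul_of_nonneg_left (sum_vonMangoldt_div_le hN ?_) (by positivity)) ?_
  · exact fun m hm => by
      rw [hP, mem_filter, mem_Icc] at hm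
      rw [mem_Ioc]
      omega
  rw [logAverage, mul_sum]
  refine sum_le_sum fun n hn => ?_
  rw [mem_Icc] at hn
  have hn0 : (0 : ℝ) < n := by exact_mod_cast hn.1
  rw [← sum_filter, ← sum_mul]
  have hw : ∑ m ∈ P.filter (fun m => n ∈ Ioc (N / m) (N / m + hh m)), Λ m ≤
      4 * ε * ((N : ℝ) / n) := by
    refine sum_vonMangoldt_window_le hε (by linarith) h _ (by positivity) (fun m hm => ?_)
      fun hne => ?_
    · rw [mem_filter, mem_Ioc] at hm
      obtain ⟨hm0, hc1, hc2, hq, hq', hq1, hM0⟩ := facts m hm.1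
      have h1 : ((N / m : ℕ) : ℝ) + 1 ≤ n := by exact_mod_cast hm.2.1
      have h2 : (n : ℝ) ≤ (N / m : ℕ) + hh m := by exact_mod_cast hm.2.2
      constructor
      · rw [div_lt_iff₀ hn0]
        nlinarith
      · rw [div_mul_eq_mul_div, le_div_iff₀ hn0]
        nlinarith [mul_le_mul_of_nonneg_left hq (by positivity : 0 ≤ 1 + 2 * ε)]
    · obtain ⟨m, hm⟩ := hne
      rw [mem_filter, mem_Ioc] at hm
      obtain ⟨hm0, hc1, hc2, hq, hq', hq1, hM0⟩ := facts m hm.1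
      have h2 : (n : ℝ) ≤ (N / m : ℕ) + hh m := by exact_mod_cast hm.2.2
      rw [le_div_iff₀ hn0]
      rcases le_or_gt a₀ 0 with ha0 | ha0
      · nlinarith
      · have h3 : (n : ℝ) ≤ 2 * (N / m : ℕ) := by nlinarith
        nlinarith [mul_le_mul_of_nonneg_left h3 ha0.le]
  refine (mul_le_mul_of_nonneg_right hw (by positivity)).trans_eq ?_
  field_simp
  ring

/-- **Halász's theorem**, uniformly in the completely multiplicative function. -/
theorem exists_norm_partialSum_le {η : ℝ} (hη : 0 < η) :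
    ∃ κ, 0 < κ ∧ ∃ T : ℝ, ∀ᶠ N : ℕ in atTop, ∀ a : ℕ →*₀ ℂ, (∀ n, ‖a n‖ ≤ 1) →
      SmallNear a κ T N → ‖partialSum a N‖ ≤ η * N := by
  obtain ⟨ε, hε, hε4, hεη⟩ : ∃ ε : ℝ, 0 < ε ∧ ε ≤ 1 / 4 ∧ 19 * ε ≤ η / 2 :=
    ⟨min (1 / 4) (η / 38), lt_min (by norm_num) (by linarith), min_le_left _ _,
      by linarith [min_le_right (1 / 4 : ℝ) (η / 38)]⟩
  obtain ⟨a₀, ha₀⟩ : ∃ a₀ : ℝ, ∀ x ≥ a₀, |Chebyshev.psi x - x| ≤ ε / 2 * x := by
    have h := (Metric.tendsto_nhds.1 FA.PNT.Summary.tendsto_psi) (ε / 2) (by positivity)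
    obtain ⟨b, hb⟩ := eventually_atTop.1 (h.and (eventually_gt_atTop (0 : ℝ)))
    refine ⟨b, fun x hx => ?_⟩
    obtain ⟨h1, h2⟩ := hb x hx
    rw [Real.dist_eq, div_sub_one h2.ne', abs_div, abs_of_pos h2, div_lt_iff₀ h2] at h1
    exact h1.le
  set Q := ⌈1 / ε⌉₊ with hQdef
  set M₀ := max 2 ⌈2 * a₀⌉₊ with hM₀def
  set C := 1 + (Real.log M₀ + 6) + (Real.log (2 * (Q + 1)) + 12) + 12 * ε with hC
  have hlog : Tendsto (fun X : ℕ => Real.log X) atTop atTop :=
    Real.tendsto_log_atTop.comp tendsto_natCast_atTop_atTop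
  obtain ⟨κ, hκ, T, hT⟩ := exists_logAverage_le hε
  refine ⟨κ, hκ, T, ?_⟩
  filter_upwards [hT, hlog.eventually_ge_atTop 1,
    hlog.eventually_ge_atTop (C / ε), eventually_ge_atTop (Q + 1), eventually_ge_atTop 1]
    with N hJ hL hLC hNQ hN a ha hsmall
  have hJ := hJ a ha hsmall
  have hN0 : (0 : ℝ) < N := by exact_mod_cast hN
  have htriv : ∀ m ∈ Icc 1 N, Λ m * ‖partialSum a (N / m)‖ ≤ N * (Λ m / m) := by
    intro m hm
    refine (mul_le_mul_of_nonneg_left ((norm_partialSum_le ha _).trans Nat.cast_div_le)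
      ArithmeticFunction.vonMangoldt_nonneg).trans_eq ?_
    ring
  set g := fun m => Λ m * ‖partialSum a (N / m)‖ with hg
  have hA : ∑ m ∈ (Icc 1 N).filter (fun m => m ≤ M₀), g m ≤ N * (Real.log M₀ + 6) := by
    refine (sum_le_sum fun m hm => htriv m (mem_filter.1 hm).1).trans ?_
    rw [← mul_sum]
    refine mul_le_mul_of_nonneg_left (sum_vonMangoldt_div_le (by omega) fun m hm => ?_) hN0.le
    rw [mem_filter, mem_Icc] at hm
    rw [mem_Ioc]
    omega
  have hB : ∑ m ∈ (Icc 1 N).filter (fun m => ¬m ≤ M₀ ∧ N / m ≤ Q), g m ≤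
      N * (Real.log (2 * (Q + 1)) + 12) := by
    refine (sum_le_sum fun m hm => htriv m (mem_filter.1 hm).1).trans ?_
    rw [← mul_sum]
    refine mul_le_mul_of_nonneg_left ?_ hN0.le
    set M₁ := N / (Q + 1) with hM₁
    have hM₁1 : 1 ≤ M₁ := Nat.div_pos hNQ (Nat.succ_pos _)
    have hsub : (Icc 1 N).filter (fun m => ¬m ≤ M₀ ∧ N / m ≤ Q) ⊆ Ioc M₁ N := by
      intro m hm
      rw [mem_filter, mem_Icc] at hm
      rw [mem_Ioc]
      refine ⟨?_, hm.1.2⟩
      have h1 : N < (Q + 1) * m := Nat.lt_mul_of_div_lt (by omega) (by omega)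
      exact Nat.div_lt_of_lt_mul h1
    refine (sum_le_sum_of_subset_of_nonneg hsub fun m _ _ => by
      have := ArithmeticFunction.vonMangoldt_nonneg (n := m)
      positivity).trans ?_
    have e := sum_Ioc_consecutive (fun m => Λ m / m) (Nat.zero_le M₁) (Nat.div_le_self N _)
    have h1 := abs_le.1 (PrimesMinusOne.abs_sum_vonMangoldt_div_sub_le hM₁1)
    have h2 := abs_le.1 (PrimesMinusOne.abs_sum_vonMangoldt_div_sub_le hN)
    have h3 : Real.log N ≤ Real.log (2 * (Q + 1)) + Real.log M₁ := by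
      rw [← Real.log_mul (by positivity) (by positivity)]
      refine Real.log_le_log hN0 ?_
      have h4 : N < (M₁ + 1) * (Q + 1) :=
        Nat.lt_mul_of_div_lt (Nat.lt_succ_self _) (Nat.succ_pos _)
      have h5 : (N : ℝ) ≤ ((M₁ : ℝ) + 1) * ((Q : ℝ) + 1) := by exact_mod_cast h4.le
      have h6 : (1 : ℝ) ≤ M₁ := by exact_mod_cast hM₁1
      nlinarith
    linarith
  have hmid := sum_middle_le ha hε hε4 ha₀ (Nat.le_ceil _) (le_max_left 2 ⌈2 * a₀⌉₊)
    ((Nat.le_ceil _).trans (by exact_mod_cast le_max_right 2 ⌈2 * a₀⌉₊)) hN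
  have hsplit : ∑ m ∈ Icc 1 N, g m = ∑ m ∈ (Icc 1 N).filter (fun m => m ≤ M₀), g m +
      (∑ m ∈ (Icc 1 N).filter (fun m => ¬m ≤ M₀ ∧ N / m ≤ Q), g m +
      ∑ m ∈ (Icc 1 N).filter (fun m => M₀ < m ∧ Q < N / m), g m) := by
    rw [← sum_filter_add_sum_filter_not (Icc 1 N) (fun m => m ≤ M₀),
      ← sum_filter_add_sum_filter_not ((Icc 1 N).filter fun m => ¬m ≤ M₀) (fun m => N / m ≤ Q),
      filter_filter, filter_filter]
    simp only [not_le]
  have hmain := norm_partialSum_mul_log_le_sum ha N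
  rw [hsplit] at hmain
  have hbound : ‖partialSum a N‖ * Real.log N ≤ N * (19 * ε * Real.log N) := by
    rw [div_le_iff₀ hε] at hLC
    have h1 := mul_le_mul_of_nonneg_left hJ (by positivity : (0 : ℝ) ≤ 16 * N)
    have h2 := mul_le_mul_of_nonneg_left hLC hN0.le
    rw [hC] at h2
    rw [← hQdef, ← hM₀def] at hmid
    nlinarith [mul_pos (mul_pos hN0 hε) (lt_of_lt_of_le one_pos hL)]
  refine (le_of_mul_le_mul_right (a := Real.log N) ?_ (by linarith)).trans
    (show (N : ℝ) * (19 * ε) ≤ η * N by nlinarith)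
  linarith

/-- **Halász's theorem** for completely multiplicative functions. -/
theorem tendsto_partialSum_div (ha : ∀ n, ‖a n‖ ≤ 1)
    (hD : ∀ t : ℝ, ¬Summable fun p : Nat.Primes =>
      (1 - (a p * ((p : ℕ) : ℂ) ^ (-(t : ℂ) * Complex.I)).re) / (p : ℕ)) :
    Tendsto (fun N : ℕ => partialSum a N / N) atTop (𝓝 0) := by
  refine NormedAddGroup.tendsto_nhds_zero.2 fun η hη => ?_
  obtain ⟨κ, hκ, T, hT⟩ := exists_norm_partialSum_le (half_pos hη)
  filter_upwards [hT, eventually_ge_atTop 1,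
    tendsto_one_add_inv_log.eventually (eventually_norm_LSeries_le_small ha hD hκ T)]
    with N h hN hsmall
  have hN0 : (0 : ℝ) < N := by exact_mod_cast hN
  rw [norm_div, Complex.norm_natCast, div_lt_iff₀ hN0]
  refine (h a ha fun t ht => (hsmall t ht).trans_eq ?_).trans_lt (by nlinarith)
  rw [add_sub_cancel_left, div_div_eq_mul_div, div_one]

end FA.Halasz
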