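import Mathlib.NumberTheory.ArithmeticFunction.Moebius
import Mathlib.NumberTheory.EulerProduct.Basic
import Mathlib.NumberTheory.LSeries.Convolution
import Mathlib.Analysis.SpecificLimits.Basic
import Mathlib.Analysis.PSeries
import Mathlib.Analysis.SpecialFunctions.Exp
import Mathlib.Analysis.Complex.Basic

/-!
# Passing to a completely multiplicative function

A bounded multiplicative `f` is `H ∗ a` with `a` completely multiplicative, equal to `f` at the
primes, and `∑ ‖H d‖ / d` finite.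
-/

set_option autoImplicit false

noncomputable section

namespace FA.Halasz

open Finset ArithmeticFunction
open scoped ArithmeticFunction.Moebius ArithmeticFunction.zeta

/-- The completely multiplicative function with the values of `g` at the primes. -/
def cmExt (g : ℕ → ℂ) : ℕ →*₀ ℂ where
  toFun n := if n = 0 then 0 else n.factorization.prod fun p k => g p ^ k
  map_zero' := rfl
  map_one' := by simp
  map_mul' m n := by
    rcases eq_or_ne m 0 with rfl | hm
    · simp
    rcases eq_or_ne n 0 with rfl | hn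
    · simp
    rw [if_neg (mul_ne_zero hm hn), if_neg hm, if_neg hn, Nat.factorization_mul hm hn,
      Finsupp.prod_add_index' (fun _ => pow_zero _) fun _ _ _ => pow_add _ _ _]

theorem cmExt_apply (g : ℕ → ℂ) {n : ℕ} (hn : n ≠ 0) :
    cmExt g n = n.factorization.prod fun p k => g p ^ k :=
  if_neg hn

theorem cmExt_prime (g : ℕ → ℂ) {p : ℕ} (hp : p.Prime) : cmExt g p = g p := by
  rw [cmExt_apply g hp.ne_zero, hp.factorization,
    Finsupp.prod_single_index (h := fun p k => g p ^ k) (pow_zero _), pow_one]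

theorem norm_cmExt_le {g : ℕ → ℂ} (hg : ∀ n, ‖g n‖ ≤ 1) (n : ℕ) : ‖cmExt g n‖ ≤ 1 := by
  rcases eq_or_ne n 0 with rfl | hn
  · simp
  rw [cmExt_apply g hn, Finsupp.prod, norm_prod]
  exact prod_le_one (fun p _ => norm_nonneg _) fun p _ => by
    rw [norm_pow]
    exact pow_le_one₀ (norm_nonneg _) (hg p)

/-- A homomorphism as an arithmetic function. -/
def ofHom (a : ℕ →*₀ ℂ) : ArithmeticFunction ℂ := toArithmeticFunction (⇑a)

theorem ofHom_apply (a : ℕ →*₀ ℂ) (n : ℕ) : ofHom a n = a n := by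
  show (if n = 0 then 0 else a n) = a n
  split_ifs with h
  · rw [h, _root_.map_zero]
  · rfl

/-- The convolution inverse of a completely multiplicative function. -/
def invHom (a : ℕ →*₀ ℂ) : ArithmeticFunction ℂ := (μ : ArithmeticFunction ℂ).pmul (ofHom a)

theorem invHom_apply (a : ℕ →*₀ ℂ) (n : ℕ) : invHom a n = (μ n : ℂ) * a n := by
  rw [invHom, pmul_apply, intCoe_apply, ofHom_apply]

theorem invHom_mul (a : ℕ →*₀ ℂ) : invHom a * ofHom a = 1 := by
  ext n
  have h := congrArg (fun F : ArithmeticFunction ℂ => F n)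
    (coe_moebius_mul_coe_zeta (R := ℂ))
  simp only [mul_apply] at h ⊢
  have e : ∀ x ∈ n.divisorsAntidiagonal, invHom a x.1 * ofHom a x.2 =
      a n * ((μ : ArithmeticFunction ℂ) x.1 * (ζ : ArithmeticFunction ℂ) x.2) := by
    intro x hx
    rw [Nat.mem_divisorsAntidiagonal] at hx
    have h2 : x.2 ≠ 0 := fun h => hx.2 (by rw [← hx.1, h, mul_zero])
    rw [invHom_apply, ofHom_apply, natCoe_apply, zeta_apply_ne h2, intCoe_apply, ← hx.1, map_mul,
      Nat.cast_one, mul_one]
    ring
  rw [sum_congr rfl e, ← mul_sum, h]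
  rcases eq_or_ne n 1 with rfl | hn
  · simp
  · simp [one_apply_ne hn]

/-- The factor `H` with `f = H ∗ a`. -/
def quotHom (f : ℕ → ℂ) : ArithmeticFunction ℂ :=
  toArithmeticFunction f * invHom (cmExt f)

theorem toAF_apply (f : ℕ → ℂ) {n : ℕ} (hn : n ≠ 0) : toArithmeticFunction f n = f n :=
  if_neg hn

theorem quotHom_mul (f : ℕ → ℂ) : quotHom f * ofHom (cmExt f) = toArithmeticFunction f := by
  rw [quotHom, mul_assoc, invHom_mul, mul_one]

variable {f : ℕ → ℂ}

theorem isMultiplicative_quotHom (h1 : f 1 = 1)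
    (hmul : ∀ m n : ℕ, m.Coprime n → f (m * n) = f m * f n) :
    (quotHom f).IsMultiplicative := by
  refine IsMultiplicative.mul ?_ (IsMultiplicative.pmul isMultiplicative_moebius.intCast ?_)
  · rw [IsMultiplicative.iff_ne_zero]
    refine ⟨by rw [toAF_apply f one_ne_zero, h1], fun {m n} hm hn hc => ?_⟩
    rw [toAF_apply f (mul_ne_zero hm hn), toAF_apply f hm, toAF_apply f hn, hmul m n hc]
  · rw [IsMultiplicative.iff_ne_zero]
    exact ⟨by rw [ofHom_apply, map_one], fun _ _ _ => by simp only [ofHom_apply, map_mul]⟩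

theorem quotHom_prime_pow (f : ℕ → ℂ) {p : ℕ} (hp : p.Prime) (k : ℕ) :
    quotHom f (p ^ (k + 1)) = f (p ^ (k + 1)) - f p * f (p ^ k) := by
  have hF : ∀ j : ℕ, toArithmeticFunction f (p ^ j) = f (p ^ j) :=
    fun j => toAF_apply f (pow_ne_zero _ hp.ne_zero)
  rw [quotHom, mul_comm, mul_apply, Nat.sum_divisorsAntidiagonal
      (fun i j => invHom (cmExt f) i * toArithmeticFunction f j),
    Nat.sum_divisors_prime_pow hp, sum_range_succ', sum_range_succ']
  rw [sum_eq_zero (fun i _ => by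
    rw [invHom_apply, moebius_apply_prime_pow hp (by omega), if_neg (by omega)]
    simp)]
  rw [zero_add, pow_one, pow_zero, Nat.div_one, invHom_apply, invHom_apply, cmExt_prime f hp,
    moebius_apply_prime hp, moebius_apply_one, map_one,
    show p ^ (k + 1) / p = p ^ k by rw [pow_succ, Nat.mul_div_cancel _ hp.pos], hF, hF]
  push_cast
  ring

theorem norm_quotHom_prime_pow_le (hf : ∀ n, ‖f n‖ ≤ 1) {p : ℕ} (hp : p.Prime) (k : ℕ) :
    ‖quotHom f (p ^ (k + 1))‖ ≤ 2 := by
  rw [quotHom_prime_pow f hp]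
  refine (norm_sub_le _ _).trans ?_
  rw [norm_mul]
  nlinarith [hf p, hf (p ^ k), hf (p ^ (k + 1)), norm_nonneg (f p), norm_nonneg (f (p ^ k))]

theorem quotHom_prime (h1 : f 1 = 1) {p : ℕ} (hp : p.Prime) : quotHom f p = 0 := by
  have h := quotHom_prime_pow f hp 0
  rwa [pow_one, pow_zero, h1, mul_one, sub_self] at h

/-- `∑ ‖H d‖ / d` converges: `H p = 0` and `‖H (p ^ k)‖ ≤ 2`. -/
theorem summable_norm_quotHom_div (h1 : f 1 = 1)
    (hmul : ∀ m n : ℕ, m.Coprime n → f (m * n) = f m * f n) (hf : ∀ n, ‖f n‖ ≤ 1) :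
    Summable fun d : ℕ => ‖quotHom f d‖ / d := by
  set w : ℕ → ℝ := fun d => ‖quotHom f d‖ / d with hw
  have hH := isMultiplicative_quotHom h1 hmul
  have w1 : w 1 = 1 := by simp [hw, hH.map_one]
  have wmul : ∀ {m n : ℕ}, m.Coprime n → w (m * n) = w m * w n := fun {m n} hc => by
    simp only [hw, hH.map_mul_of_coprime hc, norm_mul, Nat.cast_mul, mul_div_mul_comm]
  have wtail : ∀ {p : ℕ}, p.Prime → Summable (fun k => w (p ^ k)) ∧
      ∑' k, w (p ^ k) ≤ 1 + 4 / (p : ℝ) ^ 2 := by
    intro p hp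
    have hp2 : (2 : ℝ) ≤ p := by exact_mod_cast hp.two_le
    set r := (p : ℝ)⁻¹ with hr
    have hr0 : 0 ≤ r := by positivity
    have hr1 : r ≤ 1 / 2 := by
      rw [hr, one_div]
      exact inv_anti₀ two_pos hp2
    have hb : ∀ k, w (p ^ (k + 2)) ≤ 2 * r ^ 2 * r ^ k := by
      intro k
      simp only [hw, Nat.cast_pow, hr, inv_pow]
      rw [mul_assoc, ← mul_inv, ← pow_add, add_comm 2 k, ← div_eq_mul_inv]
      exact div_le_div_of_nonneg_right (norm_quotHom_prime_pow_le hf hp (k + 1)) (by positivity)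
    have hg : Summable fun k => 2 * r ^ 2 * r ^ k :=
      (summable_geometric_of_lt_one hr0 (by linarith)).mul_left _
    have hs2 : Summable fun k => w (p ^ (k + 2)) :=
      hg.of_nonneg_of_le (fun k => by positivity) hb
    have hs : Summable fun k => w (p ^ k) := (summable_nat_add_iff 2).1 hs2
    refine ⟨hs, ?_⟩
    rw [← hs.sum_add_tsum_nat_add 2, sum_range_succ, sum_range_one, pow_zero, pow_one, w1]
    have hwp : w p = 0 := by simp [hw, quotHom_prime h1 hp]
    rw [hwp, add_zero]
    refine add_le_add le_rfl ((hs2.tsum_le_tsum hb hg).trans ?_)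
    rw [tsum_mul_left, tsum_geometric_of_lt_one hr0 (by linarith)]
    have h2 : (1 - r)⁻¹ ≤ 2 := by
      rw [inv_le_comm₀ (by linarith) two_pos]
      linarith
    calc 2 * r ^ 2 * (1 - r)⁻¹ ≤ 2 * r ^ 2 * 2 := mul_le_mul_of_nonneg_left h2 (by positivity)
      _ = 4 / (p : ℝ) ^ 2 := by rw [hr, inv_pow, div_eq_mul_inv]; ring
  have hz : Summable fun n : ℕ => 4 / (n : ℝ) ^ 2 := by
    simpa [div_eq_mul_inv] using (Real.summable_one_div_nat_pow.2 one_lt_two).mul_left (4 : ℝ)
  refine summable_of_sum_le (c := Real.exp (∑' n : ℕ, 4 / (n : ℝ) ^ 2))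
    (fun d => by positivity) fun u => ?_
  set s := range (u.sup id + 1) with hs
  obtain ⟨-, hsum⟩ := EulerProduct.summable_and_hasSum_factoredNumbers_prod_filter_prime_tsum
    (f := w) w1 wmul (fun hp => by simpa using (wtail hp).1.abs) s
  have hle : ∑ d ∈ u, w d ≤ ∏ p ∈ s with p.Prime, ∑' k, w (p ^ k) := by
    have hw0 : ∀ d, 0 ≤ w d := fun d => by positivity
    refine le_trans (sum_le_sum (g := (Nat.factoredNumbers s).indicator w) fun d hd => ?_)
      (sum_le_hasSum u (fun d _ => Set.indicator_nonneg (fun x _ => hw0 x) d)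
        ((hasSum_subtype_iff_indicator (f := w)).1 hsum))
    rcases eq_or_ne d 0 with rfl | hd0
    · rw [show w 0 = 0 by simp [hw]]
      exact Set.indicator_nonneg (fun x _ => hw0 x) _
    · rw [Set.indicator_of_mem]
      refine Nat.mem_factoredNumbers.2 ⟨hd0, fun p hp => ?_⟩
      rw [hs, mem_range]
      have h1 : p ≤ d := Nat.le_of_mem_primeFactorsList hp
      have h2 : id d ≤ u.sup id := le_sup hd
      rw [id] at h2
      omega
  refine hle.trans ?_
  calc ∏ p ∈ s with p.Prime, ∑' k, w (p ^ k)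
      ≤ ∏ p ∈ s with p.Prime, Real.exp (4 / (p : ℝ) ^ 2) := by
        refine prod_le_prod (fun p _ => tsum_nonneg fun k => by positivity) fun p hp => ?_
        refine ((wtail (mem_filter.1 hp).2).2).trans ?_
        rw [add_comm]
        exact Real.add_one_le_exp _
    _ = Real.exp (∑ p ∈ s with p.Prime, 4 / (p : ℝ) ^ 2) := (Real.exp_sum _ _).symm
    _ ≤ _ := Real.exp_le_exp.2 (hz.sum_le_tsum _ fun n _ => by positivity)

end FA.Halasz
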