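import Fermat.Agent.Halasz.Completely
import Fermat.Agent.Halasz.Comparison
import Mathlib.Analysis.Normed.Group.Tannery

/-!
# Halász's theorem and Wirsing's theorem
-/

set_option autoImplicit false

noncomputable section

namespace FA.Halasz

open Filter Topology Finset

variable {f : ℕ → ℂ}

/-- **Halász's mean value theorem.** -/
theorem tendsto_mean_zero (h1 : f 1 = 1) (hmul : ∀ m n : ℕ, m.Coprime n → f (m * n) = f m * f n)
    (hf : ∀ n, ‖f n‖ ≤ 1)
    (hD : ∀ t : ℝ, ¬Summable fun p : Nat.Primes =>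
      (1 - (f p * ((p : ℕ) : ℂ) ^ (-(t : ℂ) * Complex.I)).re) / (p : ℕ)) :
    Tendsto (fun N : ℕ => (∑ n ∈ Icc 1 N, f n) / N) atTop (𝓝 0) := by
  set a := cmExt f with hadef
  have ha : ∀ n, ‖a n‖ ≤ 1 := norm_cmExt_le hf
  have hA : Tendsto (fun q : ℕ => partialSum a q / q) atTop (𝓝 0) :=
    tendsto_partialSum_div ha fun t h => hD t (h.congr fun p => by
      rw [hadef, cmExt_prime f p.2])
  set H := quotHom f with hHdef
  have hsplit : ∀ N, ∑ n ∈ Icc 1 N, f n =
      ∑ d ∈ Icc 1 N, H d * partialSum a (N / d) := by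
    intro N
    have h := ArithmeticFunction.sum_Ioc_mul_eq_sum_sum H (ofHom a) N
    rw [hHdef, hadef, quotHom_mul, ← hadef, ← hHdef] at h
    simp only [← Icc_add_one_left_eq_Ioc, zero_add] at h
    refine Eq.trans (sum_congr rfl fun n hn => ?_) (h.trans (sum_congr rfl fun d _ => ?_))
    · rw [mem_Icc] at hn
      exact (toAF_apply f (by omega)).symm
    · simp only [partialSum, ofHom_apply]
  have hG : ∀ N, (∑ n ∈ Icc 1 N, f n) / N = ∑' d, H d * partialSum a (N / d) / N := by
    intro N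
    rw [tsum_eq_sum (s := Icc 1 N), hsplit, sum_div]
    intro d hd
    rw [mem_Icc, not_and_or, not_le, not_le] at hd
    rcases hd with hd | hd
    · rw [Nat.lt_one_iff.1 hd]
      simp [H.map_zero]
    · simp [Nat.div_eq_of_lt hd, partialSum]
  simp only [hG]
  rw [show (0 : ℂ) = ∑' _d : ℕ, (0 : ℂ) from tsum_zero.symm]
  refine tendsto_tsum_of_dominated_convergence (summable_norm_quotHom_div h1 hmul hf)
    (fun d => ?_) (Eventually.of_forall fun N d => ?_)
  · rcases Nat.eq_zero_or_pos d with rfl | hd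
    · simp [H.map_zero]
    have hq : Tendsto (fun N : ℕ => N / d) atTop atTop :=
      tendsto_atTop_atTop.2 fun b => ⟨b * d, fun n hn => (Nat.le_div_iff_mul_le hd).2 hn⟩
    refine squeeze_zero_norm (fun N => ?_)
      (by simpa using ((hA.comp hq).norm.const_mul ‖H d‖))
    rw [norm_div, norm_mul, Complex.norm_natCast, mul_div_assoc]
    refine mul_le_mul_of_nonneg_left ?_ (norm_nonneg _)
    rcases Nat.eq_zero_or_pos (N / d) with hz | hz
    · simp [hz, partialSum]
    · exact div_le_div_of_nonneg_left (norm_nonneg _) (by exact_mod_cast hz)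
        (by exact_mod_cast Nat.div_le_self N d)
  · rw [norm_div, norm_mul, Complex.norm_natCast]
    rcases Nat.eq_zero_or_pos N with rfl | hN
    · simp only [Nat.cast_zero, div_zero]
      positivity
    rw [div_le_iff₀ (by exact_mod_cast hN), div_mul_eq_mul_div, mul_div_assoc]
    refine mul_le_mul_of_nonneg_left ((norm_partialSum_le ha _).trans ?_) (norm_nonneg _)
    exact Nat.cast_div_le

/-- For `u ≠ 0` the sum `∑ₚ (1 - cos (u log p)) / p` diverges. -/
theorem not_summable_one_sub_cos {u : ℝ} (hu : u ≠ 0) :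
    ¬Summable fun p : Nat.Primes => (1 - Real.cos (u * Real.log (p : ℕ))) / (p : ℕ) := by
  intro hS
  set V := ∑' p : Nat.Primes, (1 - Real.cos (u * Real.log (p : ℕ))) / (p : ℕ)
  have hre : ∀ (p : Nat.Primes) (σ : ℝ), dev (1 : ℕ →*₀ ℂ) p σ u =
      (1 - Real.cos (u * Real.log (p : ℕ))) * ((p : ℕ) : ℝ) ^ (-σ) := by
    intro p σ
    have hp : (0 : ℝ) < (p : ℕ) := Nat.cast_pos.2 p.2.pos
    rw [dev, twist_apply, one_apply_prime, one_mul, ← Complex.ofReal_natCast,
      Complex.cpow_def_of_ne_zero (Complex.ofReal_ne_zero.2 hp.ne'), ← Complex.ofReal_log hp.le,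
      Complex.exp_re]
    simp only [Complex.mul_re, Complex.mul_im, Complex.neg_re, Complex.neg_im, Complex.add_re,
      Complex.add_im, Complex.ofReal_re, Complex.ofReal_im, Complex.I_re, Complex.I_im, mul_zero,
      mul_one, zero_mul, sub_zero, add_zero, zero_add]
    rw [Real.rpow_def_of_pos hp, mul_neg, mul_neg, Real.cos_neg, mul_comm (Real.log _) u]
    ring
  have hc : ContinuousAt (fun σ : ℝ => ‖riemannZeta (σ + u * Complex.I)‖) 1 := by
    refine ContinuousAt.norm (ContinuousAt.comp (f := fun σ : ℝ => (σ : ℂ) + u * Complex.I)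
      (g := riemannZeta) ?_ (by fun_prop))
    refine (differentiableAt_riemannZeta ?_).continuousAt
    intro h
    exact hu (by simpa using congrArg Complex.im h)
  set B := ‖riemannZeta ((1 : ℝ) + u * Complex.I)‖ + 1 with hB
  have h1 : Tendsto (fun σ : ℝ => ‖riemannZeta (σ : ℂ)‖) (𝓝[>] 1) atTop := by
    have e1 : Tendsto (fun σ : ℝ => (σ : ℂ)) (𝓝[>] 1) (𝓝[≠] 1) := by
      refine tendsto_nhdsWithin_iff.2 ⟨?_, ?_⟩
      · exact (Complex.continuous_ofReal.tendsto' 1 1 Complex.ofReal_one).mono_left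
          nhdsWithin_le_nhds
      · filter_upwards [self_mem_nhdsWithin] with σ hσ
        simpa using (ne_of_gt (Set.mem_Ioi.1 hσ))
    have e2 := (riemannZeta_residue_one.comp e1).norm
    rw [norm_one] at e2
    have e3 : Tendsto (fun σ : ℝ => (σ - 1)⁻¹) (𝓝[>] 1) atTop := by
      refine tendsto_inv_nhdsGT_zero.comp (tendsto_nhdsWithin_iff.2 ⟨?_, ?_⟩)
      · exact ((continuous_id.sub continuous_const).tendsto' (1 : ℝ) 0 (by simp)).mono_left
          nhdsWithin_le_nhds
      · filter_upwards [self_mem_nhdsWithin] with σ hσ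
        simpa using hσ
    refine (e3.atTop_mul_pos one_pos e2).congr' ?_
    filter_upwards [self_mem_nhdsWithin] with σ hσ
    rw [Set.mem_Ioi] at hσ
    rw [Function.comp_apply, norm_mul, ← Complex.ofReal_one, ← Complex.ofReal_sub,
      Complex.norm_real, Real.norm_of_nonneg (by linarith), ← mul_assoc,
      inv_mul_cancel₀ (by linarith : σ - 1 ≠ 0), one_mul]
  have h2 : ∀ᶠ σ : ℝ in 𝓝[>] 1, ‖riemannZeta (σ + u * Complex.I)‖ ≤ B :=
    (hc.eventually (Iic_mem_nhds (show _ < B by rw [hB]; exact lt_add_one _))).filter_mono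
      nhdsWithin_le_nhds
  obtain ⟨σ, hσ1, hσ2, hσ3⟩ := ((h1.eventually_gt_atTop (B * Real.exp (V + 2 * sqConst))).and
    (h2.and self_mem_nhdsWithin)).exists
  have hd := hasSum_dev norm_one_apply_le hσ3 u
  have hle : primeSum (1 : ℕ →*₀ ℂ) σ - primeSum (1 : ℕ →*₀ ℂ) (σ + u * Complex.I) ≤ V := by
    rw [← hd.tsum_eq]
    refine hd.summable.tsum_le_tsum (fun p => ?_) hS
    rw [hre]
    refine le_of_le_of_eq (mul_le_mul_of_nonneg_left (Real.rpow_le_rpow_of_exponent_le
      (show (1 : ℝ) ≤ (p : ℕ) by exact_mod_cast p.2.one_le) (show -σ ≤ -1 by linarith))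
      (sub_nonneg.2 (Real.cos_le_one _))) ?_
    rw [Real.rpow_neg_one, div_eq_mul_inv]
  obtain ⟨g0, g1⟩ := LSeries_ne_zero_and_log_norm norm_one_apply_le
    (s := σ + u * Complex.I) (by simpa using hσ3)
  obtain ⟨k0, k1⟩ := LSeries_ne_zero_and_log_norm norm_one_apply_le (s := σ)
    (by simpa using hσ3)
  rw [LSeries_one_hom (by simpa using hσ3)] at g0 g1 k0 k1
  have : ‖riemannZeta (σ : ℂ)‖ ≤ B * Real.exp (V + 2 * sqConst) := by
    refine le_trans ?_ (mul_le_mul_of_nonneg_right hσ2 (Real.exp_nonneg _))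
    rw [← Real.exp_log (norm_pos_iff.2 k0), ← Real.exp_log (norm_pos_iff.2 g0), ← Real.exp_add,
      Real.exp_le_exp]
    linarith [(abs_le.1 g1).1, (abs_le.1 k1).2]
  linarith

/-- **Wirsing's theorem**: a real multiplicative function with values in `[-1, 1]` for which
`∑ₚ (1 - f p) / p` diverges has mean value zero. -/
theorem tendsto_mean_zero_real {f : ℕ → ℝ} (h1 : f 1 = 1)
    (hmul : ∀ m n : ℕ, m.Coprime n → f (m * n) = f m * f n) (hf : ∀ n, |f n| ≤ 1)
    (hD : ¬Summable fun p : Nat.Primes => (1 - f p) / (p : ℕ)) :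
    Tendsto (fun N : ℕ => (∑ n ∈ Icc 1 N, f n) / N) atTop (𝓝 0) := by
  have key : ∀ (p : Nat.Primes) (t : ℝ),
      ((f p : ℂ) * ((p : ℕ) : ℂ) ^ (-(t : ℂ) * Complex.I)).re =
        f p * Real.cos (t * Real.log (p : ℕ)) := by
    intro p t
    have hp : (0 : ℝ) < (p : ℕ) := Nat.cast_pos.2 p.2.pos
    rw [Complex.re_ofReal_mul, ← Complex.ofReal_natCast,
      Complex.cpow_def_of_ne_zero (Complex.ofReal_ne_zero.2 hp.ne'), ← Complex.ofReal_log hp.le,
      Complex.exp_re]
    simp only [Complex.mul_re, Complex.mul_im, Complex.neg_re, Complex.neg_im, Complex.ofReal_re,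
      Complex.ofReal_im, Complex.I_re, Complex.I_im, mul_zero, mul_one, zero_mul, neg_zero,
      sub_zero, add_zero]
    rw [Real.exp_zero, mul_neg, Real.cos_neg, one_mul, mul_comm (Real.log _)]
  have hC := tendsto_mean_zero (f := fun n => (f n : ℂ)) (by simp [h1])
    (fun m n h => by simp [hmul m n h]) (fun n => by simpa using hf n) ?_
  · refine (tendsto_zero_iff_norm_tendsto_zero.2 ?_)
    refine (tendsto_zero_iff_norm_tendsto_zero.1 hC).congr fun N => ?_
    rw [← Complex.ofReal_sum, ← Complex.ofReal_natCast, ← Complex.ofReal_div, Complex.norm_real]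
  · intro t hsum
    simp only [key] at hsum
    rcases eq_or_ne t 0 with rfl | ht
    · exact hD (by simpa using hsum)
    · refine not_summable_one_sub_cos (mul_ne_zero two_ne_zero ht)
        ((hsum.mul_left 4).of_nonneg_of_le (fun p => div_nonneg
          (sub_nonneg.2 (Real.cos_le_one _)) (Nat.cast_nonneg _)) fun p => ?_)
      rw [← mul_div_assoc, mul_assoc 2 t]
      refine div_le_div_of_nonneg_right ?_ (Nat.cast_nonneg _)
      set θ := t * Real.log (p : ℕ)
      obtain ⟨hl, hr⟩ := abs_le.1 (hf p)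
      have hc1 := Real.cos_le_one θ
      have hc2 := Real.neg_one_le_cos θ
      rw [Real.cos_two_mul]
      rcases le_total 0 (Real.cos θ) with hc | hc
      · nlinarith [mul_le_mul_of_nonneg_right hr hc]
      · nlinarith [mul_le_mul_of_nonpos_right hl hc]

end FA.Halasz
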