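import Fermat.Agent.Halasz.MeanSquare
import Mathlib.NumberTheory.Harmonic.Bounds

/-!
# The logarithmic average of `‖∑_{k ≤ n} a k‖ / n`

From the mean square of the partial sums of `a n log n` we deduce
`∑_{n ≤ X} ‖∑_{k ≤ n} a k‖ / n ² = o (log X)`.
-/

set_option autoImplicit false

noncomputable section

namespace FA.Halasz

open Filter Topology Finset

variable {a : ℕ →*₀ ℂ}

theorem norm_partialSum_le (ha : ∀ n, ‖a n‖ ≤ 1) (n : ℕ) : ‖partialSum a n‖ ≤ n := by
  refine (norm_sum_le _ _).trans ((sum_le_card_nsmul _ _ 1 fun k _ => ha k).trans_eq ?_)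
  simp

/-- `∑_{k ≤ n} log (n / k) ≤ n`. -/
theorem sum_log_sub_log_le (n : ℕ) :
    ∑ k ∈ Icc 1 n, (Real.log n - Real.log k) ≤ n := by
  rcases Nat.eq_zero_or_pos n with rfl | hn
  · simp
  have h1 : (n : ℝ) ^ n / n.factorial ≤ Real.exp n :=
    (single_le_sum (f := fun i : ℕ => (n : ℝ) ^ i / i.factorial) (fun i _ => by positivity)
      (self_mem_range_succ n)).trans (Real.sum_le_exp_of_nonneg n.cast_nonneg _)
  have h2 := Real.log_le_log (by positivity) h1
  rw [Real.log_exp, Real.log_div (by positivity) (by positivity), Real.log_pow,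
    ← prod_Ico_id_eq_factorial, Nat.cast_prod, Real.log_prod] at h2
  · rw [sum_sub_distrib, sum_const, Nat.card_Icc, Nat.add_sub_cancel, nsmul_eq_mul,
      ← Finset.Ico_add_one_right_eq_Icc]
    exact h2
  · intro k hk
    rw [mem_Ico] at hk
    exact Nat.cast_ne_zero.2 (by omega)

theorem norm_partialSum_mul_log_le (ha : ∀ n, ‖a n‖ ≤ 1) (n : ℕ) :
    ‖partialSum a n‖ * Real.log n ≤ ‖partialSum (logTwist a) n‖ + n := by
  have h : ‖partialSum a n * (Real.log n : ℂ) - partialSum (logTwist a) n‖ ≤ n := by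
    rw [partialSum, partialSum, sum_mul, ← sum_sub_distrib]
    refine (norm_sum_le _ _).trans ((sum_le_sum fun k hk => ?_).trans (sum_log_sub_log_le n))
    rw [mem_Icc] at hk
    have h0 : 0 ≤ Real.log n - Real.log k :=
      sub_nonneg.2 (Real.log_le_log (by exact_mod_cast hk.1) (by exact_mod_cast hk.2))
    rw [logTwist, ← mul_sub, ← Complex.ofReal_sub, norm_mul, Complex.norm_real,
      Real.norm_of_nonneg h0]
    exact mul_le_of_le_one_left h0 (ha k)
  have h' := norm_le_norm_add_norm_sub' (partialSum a n * (Real.log n : ℂ))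
    (partialSum (logTwist a) n)
  rw [norm_mul, Complex.norm_real, Real.norm_of_nonneg (Real.log_natCast_nonneg n)] at h'
  linarith

/-- `∑_{n ≤ X} ‖∑_{k ≤ n} a k‖ / n ²`. -/
def logAverage (a : ℕ →*₀ ℂ) (X : ℕ) : ℝ := ∑ n ∈ Icc 1 X, ‖partialSum a n‖ / (n : ℝ) ^ 2

theorem sum_inv_le (X : ℕ) : ∑ n ∈ Icc 1 X, (n : ℝ)⁻¹ ≤ 1 + Real.log X := by
  refine le_trans (le_of_eq ?_) (harmonic_le_one_add_log X)
  simp [harmonic_eq_sum_Icc]

theorem exists_logAverage_le {ε : ℝ} (hε : 0 < ε) :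
    ∃ η, 0 < η ∧ ∃ T : ℝ, ∀ᶠ X : ℕ in atTop, ∀ a : ℕ →*₀ ℂ, (∀ n, ‖a n‖ ≤ 1) →
      SmallNear a η T X → logAverage a X ≤ ε * Real.log X := by
  have hδ : 0 < ε / 5 := by positivity
  set δ := ε / 5 with hδdef
  have hlog : Tendsto (fun X : ℕ => Real.log X) atTop atTop :=
    Real.tendsto_log_atTop.comp tendsto_natCast_atTop_atTop
  obtain ⟨η, hη, T, hT⟩ := exists_sum_partialSum_sq_le
    (show (0 : ℝ) < (δ ^ 2) ^ 2 by positivity)
  refine ⟨η, hη, T, ?_⟩
  filter_upwards [hT, hlog.eventually_ge_atTop 1, hlog.eventually_ge_atTop ((1 + 2 / δ) / δ)]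
    with X hX hL1 hL2 a ha hsmall
  have hX := hX a ha hsmall
  set L := Real.log X with hLdef
  have hT : ∑ n ∈ Icc 1 X, ‖partialSum (logTwist a) n‖ / (n : ℝ) ^ 2 ≤ 2 * δ ^ 2 * L ^ 2 := by
    have h1 : ∀ n ∈ Icc 1 X, ‖partialSum (logTwist a) n‖ / (n : ℝ) ^ 2 ≤
        δ ^ 2 * L / 2 * (n : ℝ)⁻¹ +
          1 / (2 * (δ ^ 2 * L)) * (‖partialSum (logTwist a) n‖ ^ 2 / (n : ℝ) ^ 3) := by
      intro n hn
      rw [mem_Icc] at hn
      have hn0 : (0 : ℝ) < n := by exact_mod_cast hn.1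
      have hl : 0 < δ ^ 2 * L := by positivity
      rw [← sub_nonneg]
      refine le_of_le_of_eq (show (0 : ℝ) ≤ (δ ^ 2 * L * n - ‖partialSum (logTwist a) n‖) ^ 2 /
        (2 * (δ ^ 2 * L) * (n : ℝ) ^ 3) by positivity) ?_
      field_simp
      ring
    refine (sum_le_sum h1).trans ?_
    rw [sum_add_distrib, ← mul_sum, ← mul_sum]
    have h2 : δ ^ 2 * L / 2 * ∑ n ∈ Icc 1 X, (n : ℝ)⁻¹ ≤ δ ^ 2 * L / 2 * (2 * L) :=
      mul_le_mul_of_nonneg_left ((sum_inv_le X).trans (by linarith)) (by positivity)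
    have h3 := mul_le_mul_of_nonneg_left hX
      (show (0 : ℝ) ≤ 1 / (2 * (δ ^ 2 * L)) by positivity)
    have h4 : 1 / (2 * (δ ^ 2 * L)) * ((δ ^ 2) ^ 2 * L ^ 3) = δ ^ 2 * L ^ 2 / 2 := by field_simp
    nlinarith [sq_nonneg (δ * L)]
  have hsplit : ∀ n ∈ Icc 1 X, ‖partialSum a n‖ / (n : ℝ) ^ 2 ≤
      (if Real.log n ≤ δ * L then (n : ℝ)⁻¹ else 0) +
        1 / (δ * L) * (‖partialSum (logTwist a) n‖ / (n : ℝ) ^ 2 + (n : ℝ)⁻¹) := by
    intro n hn
    rw [mem_Icc] at hn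
    have hn0 : (0 : ℝ) < n := by exact_mod_cast hn.1
    split_ifs with hle
    · refine le_add_of_le_of_nonneg ?_ (by positivity)
      rw [div_le_iff₀ (by positivity)]
      refine (norm_partialSum_le ha n).trans_eq ?_
      field_simp
    · rw [zero_add]
      have hl : 0 < Real.log n := lt_trans (by positivity) (not_le.1 hle)
      have h1 : ‖partialSum a n‖ ≤ (‖partialSum (logTwist a) n‖ + n) / (δ * L) := by
        refine le_trans ?_ (div_le_div_of_nonneg_left (by positivity) (by positivity)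
          (not_le.1 hle).le)
        rw [le_div_iff₀ hl]
        exact norm_partialSum_mul_log_le ha n
      refine (div_le_div_of_nonneg_right h1 (by positivity)).trans_eq ?_
      field_simp
  refine (sum_le_sum hsplit).trans ?_
  rw [sum_add_distrib, ← mul_sum, sum_add_distrib, ← sum_filter]
  have hsmall : ∑ n ∈ (Icc 1 X).filter (fun n : ℕ => Real.log n ≤ δ * L),
      (n : ℝ)⁻¹ ≤ 1 + δ * L := by
    refine le_trans (sum_le_sum_of_subset_of_nonneg (t := Icc 1 ⌊Real.exp (δ * L)⌋₊) ?_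
      fun n _ _ => by positivity) ((sum_inv_le _).trans ?_)
    · intro n hn
      rw [mem_filter, mem_Icc] at hn
      rw [mem_Icc]
      refine ⟨hn.1.1, Nat.le_floor ?_⟩
      rw [← Real.exp_log (by exact_mod_cast hn.1.1 : (0 : ℝ) < n)]
      exact Real.exp_le_exp.2 hn.2
    · refine add_le_add le_rfl ((Real.log_le_log ?_ (Nat.floor_le (Real.exp_nonneg _))).trans_eq
        (Real.log_exp _))
      exact_mod_cast Nat.floor_pos.2 (Real.one_le_exp (by positivity))
  have hbig : 1 / (δ * L) * (∑ n ∈ Icc 1 X, ‖partialSum (logTwist a) n‖ / (n : ℝ) ^ 2 +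
      ∑ n ∈ Icc 1 X, (n : ℝ)⁻¹) ≤ 2 * δ * L + 2 / δ := by
    refine (mul_le_mul_of_nonneg_left (add_le_add hT ((sum_inv_le X).trans
      (show 1 + L ≤ 2 * L by linarith))) (by positivity)).trans_eq ?_
    field_simp
  rw [div_le_iff₀ hδ] at hL2
  have : ε * L = 5 * (δ * L) := by rw [hδdef]; ring
  nlinarith

end FA.Halasz
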