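import Mathlib.NumberTheory.EulerProduct.DirichletLSeries
import Mathlib.NumberTheory.SumPrimeReciprocals
import Mathlib.NumberTheory.LSeries.RiemannZeta
import Mathlib.Analysis.SpecialFunctions.Complex.LogBounds

/-!
# The Dirichlet series of a bounded completely multiplicative function

For completely multiplicative `a` with `‖a n‖ ≤ 1` the logarithm of the absolute value of
`∑ a n n ^ (-s)` is `∑ₚ Re (a p p ^ (-s))` up to a bounded error. If `a` does not pretend to be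
any `n ^ (i t)`, the series is `o (1 / (σ - 1))`, uniformly on compact ranges of the height.
-/

set_option autoImplicit false

noncomputable section

namespace FA.Halasz

open Filter Topology Complex

/-- `n ↦ a n * n ^ (-s)`. -/
def twist (a : ℕ →*₀ ℂ) (s : ℂ) : ℕ →*₀ ℂ where
  toFun n := a n * (n : ℂ) ^ (-s)
  map_zero' := by simp
  map_one' := by simp
  map_mul' m n := by
    rw [map_mul, Nat.cast_mul, natCast_mul_natCast_cpow]
    ring

theorem twist_apply (a : ℕ →*₀ ℂ) (s : ℂ) (n : ℕ) : twist a s n = a n * (n : ℂ) ^ (-s) :=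
  rfl

theorem norm_twist_le {a : ℕ →*₀ ℂ} (ha : ∀ n, ‖a n‖ ≤ 1) {s : ℂ} (hs : 0 < s.re) (n : ℕ) :
    ‖twist a s n‖ ≤ (n : ℝ) ^ (-s.re) := by
  rcases Nat.eq_zero_or_pos n with rfl | hn
  · simp [twist_apply, Real.zero_rpow (neg_ne_zero.2 hs.ne')]
  · rw [twist_apply, norm_mul, norm_natCast_cpow_of_pos hn, neg_re]
    exact mul_le_of_le_one_left (Real.rpow_nonneg n.cast_nonneg _) (ha n)

theorem summable_norm_twist {a : ℕ →*₀ ℂ} (ha : ∀ n, ‖a n‖ ≤ 1) {s : ℂ} (hs : 1 < s.re) :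
    Summable fun n => ‖twist a s n‖ :=
  (Real.summable_nat_rpow.2 (by linarith)).of_nonneg_of_le (fun _ => norm_nonneg _)
    (norm_twist_le ha (by linarith))

theorem LSeries_eq_tsum_twist (a : ℕ →*₀ ℂ) (s : ℂ) :
    LSeries a s = ∑' n, twist a s n :=
  tsum_congr fun n => LSeries.term_def₀ (map_zero a) s n

/-- `∑ₚ Re (a p p ^ (-s))`. -/
def primeSum (a : ℕ →*₀ ℂ) (s : ℂ) : ℝ :=
  ∑' p : Nat.Primes, (twist a s p).re

/-- `∑ₚ p ^ (-2)`. -/
def sqConst : ℝ := ∑' p : Nat.Primes, ((p : ℕ) : ℝ) ^ (-2 : ℝ)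

theorem norm_neg_log_one_sub_sub_le {z : ℂ} (hz : ‖z‖ ≤ 1 / 2) :
    ‖-log (1 - z) - z‖ ≤ ‖z‖ ^ 2 := by
  have h := norm_log_one_add_sub_self_le (z := -z) (by rw [norm_neg]; linarith)
  rw [norm_neg, ← sub_eq_add_neg, sub_neg_eq_add] at h
  rw [show -log (1 - z) - z = -(log (1 - z) + z) by ring, norm_neg]
  refine h.trans ?_
  have h2 : (1 - ‖z‖)⁻¹ ≤ 2 := by
    rw [inv_le_comm₀ (by linarith) two_pos]
    linarith
  nlinarith [sq_nonneg ‖z‖]

/-- The series does not vanish and the logarithm of its modulus is the prime sum, up to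
`∑ₚ p ^ (-2)`. -/
theorem LSeries_ne_zero_and_log_norm {a : ℕ →*₀ ℂ} (ha : ∀ n, ‖a n‖ ≤ 1) {s : ℂ}
    (hs : 1 < s.re) :
    LSeries a s ≠ 0 ∧ |Real.log ‖LSeries a s‖ - primeSum a s| ≤ sqConst := by
  have hsum := summable_norm_twist ha hs
  have hw : Summable fun p : Nat.Primes => twist a s p := hsum.of_norm.subtype _
  have hl : Summable fun p : Nat.Primes => -log (1 - twist a s p) := hw.clog_one_sub.neg
  rw [LSeries_eq_tsum_twist, ← EulerProduct.exp_tsum_primes_log_eq_tsum hsum]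
  refine ⟨exp_ne_zero _, ?_⟩
  rw [norm_exp, Real.log_exp, re_tsum hl, primeSum,
    ← (hasSum_re hl.hasSum).summable.tsum_sub (hasSum_re hw.hasSum).summable]
  have hb : ∀ p : Nat.Primes,
      ‖(-log (1 - twist a s p)).re - (twist a s p).re‖ ≤ ((p : ℕ) : ℝ) ^ (-2 : ℝ) := by
    intro p
    have hp : (2 : ℝ) ≤ (p : ℕ) := by exact_mod_cast p.2.two_le
    have h1 : ‖twist a s p‖ ≤ ((p : ℕ) : ℝ) ^ (-1 : ℝ) :=
      (norm_twist_le ha (by linarith) p).trans
        (Real.rpow_le_rpow_of_exponent_le (by linarith) (by linarith))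
    have h2 : ((p : ℕ) : ℝ) ^ (-1 : ℝ) ≤ 1 / 2 := by
      rw [Real.rpow_neg_one, one_div]
      exact inv_anti₀ two_pos hp
    rw [Real.norm_eq_abs, ← sub_re]
    refine (abs_re_le_norm _).trans ((norm_neg_log_one_sub_sub_le (h1.trans h2)).trans ?_)
    refine (pow_le_pow_left₀ (norm_nonneg _) h1 2).trans_eq ?_
    rw [← Real.rpow_natCast, ← Real.rpow_mul (Nat.cast_nonneg _)]
    norm_num
  exact tsum_of_norm_bounded (Nat.Primes.summable_rpow.2 (by norm_num)).hasSum hb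

theorem one_apply_prime (p : Nat.Primes) : (1 : ℕ →*₀ ℂ) (p : ℕ) = 1 :=
  MonoidWithZeroHom.one_apply_of_ne_zero p.2.ne_zero

theorem norm_one_apply_le (n : ℕ) : ‖(1 : ℕ →*₀ ℂ) n‖ ≤ 1 := by
  rcases eq_or_ne n 0 with rfl | hn
  · simp
  · simp [MonoidWithZeroHom.one_apply_of_ne_zero hn]

theorem LSeries_one_hom {s : ℂ} (hs : 1 < s.re) :
    LSeries (⇑(1 : ℕ →*₀ ℂ)) s = riemannZeta s := by
  rw [← LSeries_one_eq_riemannZeta hs]
  exact LSeries_congr (fun {n} hn => by simp [MonoidWithZeroHom.one_apply_of_ne_zero hn]) s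

/-- The summand of the pretentious distance. -/
def dev (a : ℕ →*₀ ℂ) (p : ℕ) (σ t : ℝ) : ℝ :=
  (p : ℝ) ^ (-σ) - (twist a (σ + t * I) p).re

theorem dev_nonneg {a : ℕ →*₀ ℂ} (ha : ∀ n, ‖a n‖ ≤ 1) (p : ℕ) {σ : ℝ} (hσ : 0 < σ) (t : ℝ) :
    0 ≤ dev a p σ t := by
  have h := norm_twist_le ha (s := σ + t * I) (by simpa using hσ) p
  simp only [add_re, ofReal_re, mul_re, I_re, mul_zero, ofReal_im, I_im, sub_zero, zero_mul,
    add_zero] at h
  exact sub_nonneg.2 ((re_le_norm _).trans h)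

theorem continuous_dev (a : ℕ →*₀ ℂ) (p : Nat.Primes) :
    Continuous fun z : ℝ × ℝ => dev a p z.1 z.2 := by
  have hp : ((p : ℕ) : ℂ) ≠ 0 := Nat.cast_ne_zero.2 p.2.ne_zero
  have hp' : ((p : ℕ) : ℝ) ≠ 0 := Nat.cast_ne_zero.2 p.2.ne_zero
  simp only [dev, twist_apply]
  exact ((Real.continuous_const_rpow hp').comp (by fun_prop)).sub
    (continuous_re.comp (continuous_const.mul
      (haveI : NeZero ((p : ℕ) : ℂ) := ⟨hp⟩
       (continuous_const_cpow _).comp (by fun_prop))))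

theorem dev_one (a : ℕ →*₀ ℂ) (p : Nat.Primes) (t : ℝ) :
    dev a p 1 t = (1 - (a p * ((p : ℕ) : ℂ) ^ (-(t : ℂ) * I)).re) / (p : ℕ) := by
  rw [dev, twist_apply, Real.rpow_neg_one, ofReal_one,
    show -((1 : ℂ) + t * I) = -(t : ℂ) * I + -1 by ring,
    cpow_add _ _ (Nat.cast_ne_zero.2 p.2.ne_zero), cpow_neg_one, ← mul_assoc,
    ← ofReal_natCast, ← ofReal_inv, re_mul_ofReal, sub_div, one_div, div_eq_mul_inv]

theorem exists_lt_sum_of_not_summable {ι : Type*} {f : ι → ℝ} (h0 : ∀ i, 0 ≤ f i)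
    (h : ¬Summable f) (M : ℝ) : ∃ S : Finset ι, M < ∑ i ∈ S, f i := by
  by_contra! hc
  exact h (summable_of_sum_le h0 hc)

theorem hasSum_dev {a : ℕ →*₀ ℂ} (ha : ∀ n, ‖a n‖ ≤ 1) {σ : ℝ} (hσ : 1 < σ) (t : ℝ) :
    HasSum (fun p : Nat.Primes => dev a p σ t)
      (primeSum (1 : ℕ →*₀ ℂ) σ - primeSum a (σ + t * I)) := by
  have h1 : Summable fun p : Nat.Primes => twist (1 : ℕ →*₀ ℂ) (σ : ℂ) p :=
    (summable_norm_twist norm_one_apply_le (by simpa using hσ)).of_norm.subtype _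
  have h2 : Summable fun p : Nat.Primes => twist a (σ + t * I) p :=
    (summable_norm_twist ha (by simpa using hσ)).of_norm.subtype _
  refine ((hasSum_re h1.hasSum).summable.hasSum.sub
    (hasSum_re h2.hasSum).summable.hasSum).congr_fun fun p => ?_
  rw [dev, twist_apply (1 : ℕ →*₀ ℂ), one_apply_prime, one_mul,
    ← ofReal_neg, ← ofReal_natCast, ← ofReal_cpow (Nat.cast_nonneg _), ofReal_re]

/-- The Dirichlet series is `ζ σ` times the exponential of minus any finite part of the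
pretentious distance, up to a constant. -/
theorem norm_LSeries_le {a : ℕ →*₀ ℂ} (ha : ∀ n, ‖a n‖ ≤ 1) {σ : ℝ} (hσ : 1 < σ) (t : ℝ)
    (S : Finset Nat.Primes) :
    ‖LSeries a (σ + t * I)‖ ≤
      ‖riemannZeta σ‖ * Real.exp (2 * sqConst) * Real.exp (-∑ p ∈ S, dev a p σ t) := by
  obtain ⟨h0, h1⟩ := LSeries_ne_zero_and_log_norm ha (s := σ + t * I) (by simpa using hσ)
  obtain ⟨g0, g1⟩ := LSeries_ne_zero_and_log_norm norm_one_apply_le (s := σ) (by simpa using hσ)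
  rw [LSeries_one_hom (by simpa using hσ)] at g0 g1
  have h2 := sum_le_hasSum S (fun p _ => dev_nonneg ha p (by linarith) t) (hasSum_dev ha hσ t)
  rw [← Real.exp_log (norm_pos_iff.2 h0), ← Real.exp_log (norm_pos_iff.2 g0), ← Real.exp_add,
    ← Real.exp_add]
  exact Real.exp_le_exp.2 (by linarith [(abs_le.1 h1).2, (abs_le.1 g1).1])

theorem eventually_norm_zeta_le :
    ∀ᶠ σ : ℝ in 𝓝[>] 1, ‖riemannZeta σ‖ ≤ 2 / (σ - 1) := by
  have h1 : Tendsto (fun σ : ℝ => (σ : ℂ)) (𝓝[>] 1) (𝓝[≠] 1) := by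
    refine tendsto_nhdsWithin_iff.2 ⟨?_, ?_⟩
    · exact (continuous_ofReal.tendsto' 1 1 ofReal_one).mono_left nhdsWithin_le_nhds
    · filter_upwards [self_mem_nhdsWithin] with σ hσ
      simpa using (ne_of_gt (Set.mem_Ioi.1 hσ))
  have h2 : Tendsto (fun σ : ℝ => ((σ : ℂ) - 1) * riemannZeta σ) (𝓝[>] 1) (𝓝 1) :=
    riemannZeta_residue_one.comp h1
  filter_upwards [h2.norm.eventually (Iio_mem_nhds (by norm_num : ‖(1 : ℂ)‖ < 2)),
    self_mem_nhdsWithin] with σ hσ hσ1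
  rw [Set.mem_Ioi] at hσ1
  rw [norm_mul, ← ofReal_one, ← ofReal_sub, norm_real,
    Real.norm_of_nonneg (by linarith)] at hσ
  rw [le_div_iff₀ (by linarith)]
  linarith

/-- A bound valid at every height, uniform in the function. -/
theorem eventually_norm_LSeries_le :
    ∀ᶠ σ : ℝ in 𝓝[>] 1, ∀ a : ℕ →*₀ ℂ, (∀ n, ‖a n‖ ≤ 1) → ∀ t : ℝ,
      ‖LSeries a (σ + t * I)‖ ≤ 2 * Real.exp (2 * sqConst) / (σ - 1) := by
  filter_upwards [eventually_norm_zeta_le, self_mem_nhdsWithin] with σ hζ hσ a ha t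
  refine (norm_LSeries_le ha hσ t ∅).trans ?_
  rw [Finset.sum_empty, neg_zero, Real.exp_zero, mul_one,
    mul_comm (2 : ℝ) (Real.exp _), mul_div_assoc, mul_comm ‖_‖]
  exact mul_le_mul_of_nonneg_left hζ (Real.exp_nonneg _)

/-- If `a` is at infinite distance from every `n ^ (i t)`, the series is `o (1 / (σ - 1))`
uniformly for bounded heights. -/
theorem eventually_norm_LSeries_le_small {a : ℕ →*₀ ℂ} (ha : ∀ n, ‖a n‖ ≤ 1)
    (hD : ∀ t : ℝ, ¬Summable fun p : Nat.Primes =>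
      (1 - (a p * ((p : ℕ) : ℂ) ^ (-(t : ℂ) * I)).re) / (p : ℕ))
    {η : ℝ} (hη : 0 < η) (T : ℝ) :
    ∀ᶠ σ : ℝ in 𝓝[>] 1, ∀ t ∈ Set.Icc (-T) T, ‖LSeries a (σ + t * I)‖ ≤ η / (σ - 1) := by
  set C := 2 * Real.exp (2 * sqConst) with hC
  obtain ⟨M, hM⟩ : ∃ M : ℝ, C * Real.exp (-M) ≤ η := by
    refine ⟨-Real.log (η / C), ?_⟩
    have hC0 : 0 < C := by positivity
    rw [neg_neg, Real.exp_log (by positivity), mul_div_cancel₀ _ hC0.ne']
  have key : ∀ᶠ σ : ℝ in 𝓝 1, ∀ t ∈ Set.Icc (-T) T,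
      ∃ S : Finset Nat.Primes, M < ∑ p ∈ S, dev a p σ t := by
    refine isCompact_Icc.eventually_forall_of_forall_eventually fun t _ => ?_
    obtain ⟨S, hS⟩ := exists_lt_sum_of_not_summable
      (f := fun p : Nat.Primes => dev a p 1 t) (fun p => dev_nonneg ha p one_pos t)
      (fun h => hD t (h.congr fun p => dev_one a p t)) M
    have hc : Continuous fun z : ℝ × ℝ => ∑ p ∈ S, dev a p z.1 z.2 :=
      continuous_finsetSum _ fun p _ => continuous_dev a p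
    filter_upwards [hc.continuousAt.eventually (Ioi_mem_nhds (show M < _ from hS))] with z hz
    exact ⟨S, hz⟩
  filter_upwards [eventually_norm_zeta_le, self_mem_nhdsWithin,
    key.filter_mono nhdsWithin_le_nhds] with σ hζ hσ hk t ht
  rw [Set.mem_Ioi] at hσ
  obtain ⟨S, hS⟩ := hk t ht
  refine (norm_LSeries_le ha hσ t S).trans ?_
  calc ‖riemannZeta σ‖ * Real.exp (2 * sqConst) * Real.exp (-∑ p ∈ S, dev a p σ t)
      ≤ 2 / (σ - 1) * Real.exp (2 * sqConst) * Real.exp (-M) := by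
        gcongr
    _ = C * Real.exp (-M) / (σ - 1) := by rw [hC]; ring
    _ ≤ η / (σ - 1) := by gcongr

end FA.Halasz
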