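import Fermat.Agent.Halasz.Plancherel
import Mathlib.NumberTheory.LSeries.SumCoeff
import Mathlib.MeasureTheory.Integral.ExpDecay
import Mathlib.Analysis.SpecialFunctions.ImproperIntegrals
import Mathlib.MeasureTheory.Integral.IntegralEqImproper

/-!
# Dirichlet series and partial sums as a Fourier pair

For a Dirichlet series with partial sums `A`, the function `u ↦ A (e ^ u) e ^ (-σ u)` on `u > 0`
has Fourier transform `L (σ + 2 π i ξ) / (σ + 2 π i ξ)`. Plancherel's identity then compares the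
mean square of the partial sums with that of the series.
-/

set_option autoImplicit false

noncomputable section

namespace FA.Halasz

open MeasureTheory FourierTransform Complex Filter Asymptotics
open scoped ENNReal Real Topology

/-- `∑_{1 ≤ k ≤ n} f k`. -/
def partialSum (f : ℕ → ℂ) (n : ℕ) : ℂ := ∑ k ∈ Finset.Icc 1 n, f k

/-- `u ↦ A (e ^ u) e ^ (-σ u)` for `u > 0`. -/
def expSum (f : ℕ → ℂ) (σ : ℝ) : ℝ → ℂ :=
  (Set.Ioi 0).indicator fun u => partialSum f ⌊Real.exp u⌋₊ * Real.exp (-(σ * u))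

/-- The majorant `K e ^ (-(σ - r) u)` of `expSum`. -/
def expBound (K : ℝ) (δ : ℝ) : ℝ → ℝ :=
  (Set.Ioi 0).indicator fun u => K * Real.exp (-δ * u)

theorem measurable_expSum (f : ℕ → ℂ) (σ : ℝ) : Measurable (expSum f σ) := by
  refine Measurable.indicator ?_ measurableSet_Ioi
  exact ((measurable_from_top (f := partialSum f)).comp
    (Nat.measurable_floor.comp Real.measurable_exp)).mul (by fun_prop)

theorem integrable_expBound (K : ℝ) {δ : ℝ} (hδ : 0 < δ) : Integrable (expBound K δ) :=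
  (integrable_indicator_iff measurableSet_Ioi).2 ((exp_neg_integrableOn_Ioi 0 hδ).const_mul K)

variable {f : ℕ → ℂ} {K r σ : ℝ}

theorem norm_expSum_le (hK : ∀ n : ℕ, ∑ k ∈ Finset.Icc 1 n, ‖f k‖ ≤ K * (n : ℝ) ^ r)
    (hK0 : 0 ≤ K) (hr : 0 ≤ r) (u : ℝ) : ‖expSum f σ u‖ ≤ expBound K (σ - r) u := by
  by_cases hu : u ∈ Set.Ioi (0 : ℝ)
  · rw [expSum, expBound, Set.indicator_of_mem hu, Set.indicator_of_mem hu, norm_mul, norm_real,
      Real.norm_of_nonneg (Real.exp_nonneg _)]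
    have h1 : ‖partialSum f ⌊Real.exp u⌋₊‖ ≤ K * Real.exp (u * r) := by
      refine (norm_sum_le _ _).trans ((hK _).trans (mul_le_mul_of_nonneg_left ?_ hK0))
      rw [Real.exp_mul]
      exact Real.rpow_le_rpow (Nat.cast_nonneg _) (Nat.floor_le (Real.exp_nonneg u)) hr
    refine (mul_le_mul_of_nonneg_right h1 (Real.exp_nonneg _)).trans_eq ?_
    rw [mul_assoc, ← Real.exp_add]
    ring_nf
  · rw [expSum, expBound, Set.indicator_of_notMem hu, Set.indicator_of_notMem hu, norm_zero]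

theorem integrable_expSum (hK : ∀ n : ℕ, ∑ k ∈ Finset.Icc 1 n, ‖f k‖ ≤ K * (n : ℝ) ^ r)
    (hK0 : 0 ≤ K) (hr : 0 ≤ r) (hs : r < σ) : Integrable (expSum f σ) :=
  (integrable_expBound K (sub_pos.2 hs)).mono' (measurable_expSum f σ).aestronglyMeasurable
    (ae_of_all _ (norm_expSum_le hK hK0 hr))

theorem expBound_sq (K δ u : ℝ) : expBound K δ u ^ 2 = expBound (K ^ 2) (2 * δ) u := by
  unfold expBound
  by_cases hu : u ∈ Set.Ioi (0 : ℝ)
  · rw [Set.indicator_of_mem hu, Set.indicator_of_mem hu, mul_pow, ← Real.exp_nat_mul]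
    ring_nf
  · rw [Set.indicator_of_notMem hu, Set.indicator_of_notMem hu, zero_pow two_ne_zero]

theorem integrable_norm_expSum_sq (hK : ∀ n : ℕ, ∑ k ∈ Finset.Icc 1 n, ‖f k‖ ≤ K * (n : ℝ) ^ r)
    (hK0 : 0 ≤ K) (hr : 0 ≤ r) (hs : r < σ) :
    Integrable fun u => ‖expSum f σ u‖ ^ 2 := by
  refine (integrable_expBound (K ^ 2) (by linarith : (0 : ℝ) < 2 * (σ - r))).mono'
    ((measurable_expSum f σ).norm.pow_const 2).aestronglyMeasurable (ae_of_all _ fun u => ?_)
  rw [Real.norm_of_nonneg (by positivity), ← expBound_sq]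
  exact pow_le_pow_left₀ (norm_nonneg _) (norm_expSum_le hK hK0 hr u) 2

theorem integral_norm_expSum_sq_le (hK : ∀ n : ℕ, ∑ k ∈ Finset.Icc 1 n, ‖f k‖ ≤ K * (n : ℝ) ^ r)
    (hK0 : 0 ≤ K) (hr : 0 ≤ r) (hs : r < σ) :
    ∫ u, ‖expSum f σ u‖ ^ 2 ≤ K ^ 2 / (2 * (σ - r)) := by
  have hb := integrable_expBound (K ^ 2) (by linarith : (0 : ℝ) < 2 * (σ - r))
  refine (integral_mono (integrable_norm_expSum_sq hK hK0 hr hs) hb fun u => ?_).trans_eq ?_
  · simp only [← expBound_sq]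
    exact pow_le_pow_left₀ (norm_nonneg _) (norm_expSum_le hK hK0 hr u) 2
  · rw [expBound, integral_indicator measurableSet_Ioi, integral_const_mul,
      integral_exp_mul_Ioi (by linarith : -(2 * (σ - r)) < 0), mul_zero, Real.exp_zero,
      neg_div_neg_eq, ← mul_div_assoc, mul_one]

theorem memLp_two_expSum (hK : ∀ n : ℕ, ∑ k ∈ Finset.Icc 1 n, ‖f k‖ ≤ K * (n : ℝ) ^ r)
    (hK0 : 0 ≤ K) (hr : 0 ≤ r) (hs : r < σ) : MemLp (expSum f σ) 2 :=
  (memLp_two_iff_integrable_sq_norm (measurable_expSum f σ).aestronglyMeasurable).2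
    (integrable_norm_expSum_sq hK hK0 hr hs)

/-- The Fourier transform of `expSum` is `L (s) / s` on the line `re s = σ`. -/
theorem fourier_expSum (hK : ∀ n : ℕ, ∑ k ∈ Finset.Icc 1 n, ‖f k‖ ≤ K * (n : ℝ) ^ r)
    (hr : 0 ≤ r) (hs : r < σ) (ξ : ℝ) :
    𝓕 (expSum f σ) ξ =
      LSeries f (σ + (2 * π * ξ : ℝ) * I) / (σ + (2 * π * ξ : ℝ) * I) := by
  set s : ℂ := σ + (2 * π * ξ : ℝ) * I with hsdef
  have hre : s.re = σ := by simp [hsdef]
  have hs0 : s ≠ 0 := ne_zero_of_re_pos (by rw [hre]; linarith)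
  have hO : (fun n : ℕ => ∑ k ∈ Finset.Icc 1 n, ‖f k‖) =O[atTop] fun n => (n : ℝ) ^ r := by
    refine IsBigO.of_bound K (Eventually.of_forall fun n => ?_)
    rw [Real.norm_of_nonneg (Finset.sum_nonneg fun k _ => norm_nonneg _),
      Real.norm_of_nonneg (by positivity)]
    exact hK n
  rw [LSeries_eq_mul_integral' f hr (hre.symm ▸ hs) hO, mul_div_cancel_left₀ _ hs0,
    ← Real.exp_zero, ← integral_comp_exp_Ioi, Real.fourier_real_eq_integral_exp_smul,
    ← integral_indicator measurableSet_Ioi]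
  refine integral_congr_ae (ae_of_all _ fun u => ?_)
  by_cases hu : u ∈ Set.Ioi (0 : ℝ)
  · simp only [expSum, Set.indicator_of_mem hu, smul_eq_mul, Complex.real_smul, partialSum]
    rw [cpow_def_of_ne_zero (ofReal_ne_zero.2 (Real.exp_ne_zero u)),
      ← ofReal_log (Real.exp_nonneg u), Real.log_exp, ofReal_exp, ofReal_exp, mul_left_comm,
      ← Complex.exp_add, mul_left_comm (Complex.exp (u : ℂ)), ← Complex.exp_add, hsdef]
    push_cast
    ring_nf
  · simp only [expSum, Set.indicator_of_notMem hu, smul_zero]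

/-- Plancherel's identity for a Dirichlet series and its partial sums. -/
theorem lintegral_LSeries_div_sq (hK : ∀ n : ℕ, ∑ k ∈ Finset.Icc 1 n, ‖f k‖ ≤ K * (n : ℝ) ^ r)
    (hK0 : 0 ≤ K) (hr : 0 ≤ r) (hs : r < σ) :
    ∫⁻ ξ : ℝ, ENNReal.ofReal
        (‖LSeries f (σ + (2 * π * ξ : ℝ) * I) / (σ + (2 * π * ξ : ℝ) * I)‖ ^ 2) =
      ENNReal.ofReal (∫ u, ‖expSum f σ u‖ ^ 2) := by
  rw [ofReal_integral_eq_lintegral_ofReal (integrable_norm_expSum_sq hK hK0 hr hs)
    (ae_of_all _ fun u => by positivity)]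
  simp only [ENNReal.ofReal_pow (norm_nonneg _), ofReal_norm, ← fourier_expSum hK hr hs]
  exact lintegral_enorm_fourier_sq (integrable_expSum hK hK0 hr hs)
    (memLp_two_expSum hK hK0 hr hs)

end FA.Halasz
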