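import Fermat.Agent.Halasz.Series
import Mathlib.Analysis.Complex.ExponentialBounds
import Mathlib.Order.SuccPred.IntervalSucc

/-!
# Partial sums of `a n log n` in logarithmic mean square

If the series of `a` is small at `1 + 1 / log X + i t` for bounded `t`, then
`∑_{n ≤ X} |T n| ² / n ³` is small against `(log X) ³`, where `T n = ∑_{k ≤ n} a k log k`.
-/

set_option autoImplicit false

noncomputable section

namespace FA.Halasz

open MeasureTheory Filter Topology
open scoped Real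

variable {a : ℕ →*₀ ℂ}

theorem eventually_lt_one_add (δ : ℝ) (hδ : 0 < δ) :
    ∀ᶠ σ : ℝ in 𝓝[>] 1, σ ≤ 1 + δ :=
  (eventually_le_nhds (show (1 : ℝ) < 1 + δ by linarith)).filter_mono nhdsWithin_le_nhds

/-- Plancherel: the mean square of the partial sums is small against `(σ - 1) ^ (-3)`. -/
theorem exists_integral_logTwist_small {ε : ℝ} (hε : 0 < ε) :
    ∃ η, 0 < η ∧ ∃ T : ℝ, ∀ᶠ σ : ℝ in 𝓝[>] 1, ∀ a : ℕ →*₀ ℂ, (∀ n, ‖a n‖ ≤ 1) →
      (∀ t ∈ Set.Icc (-T) T, ‖LSeries a (σ + t * Complex.I)‖ ≤ η / (σ - 1)) →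
        ∫ u, ‖expSum (logTwist a) σ u‖ ^ 2 ≤ ε / (σ - 1) ^ 3 := by
  set W := ∑' k : ℤ, 14 / (1 + (k : ℝ) ^ 2) with hW
  set Cc := (Real.log 4 + 4) ^ 2 / 2 with hCc
  set C₀ := 2 * Real.exp (2 * sqConst) with hC₀
  have hW0 : 0 ≤ W := tsum_nonneg fun k => by positivity
  have hC₀0 : 0 < C₀ := by positivity
  have hCc0 : 0 < Cc := by positivity
  obtain ⟨η, hη, hη'⟩ : ∃ η : ℝ, 0 < η ∧ η ^ 2 * W * Cc ≤ ε / 2 := by
    refine ⟨√(ε / (2 * (W * Cc + 1))), by positivity, ?_⟩
    rw [Real.sq_sqrt (by positivity), div_mul_eq_mul_div, div_mul_eq_mul_div,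
      div_le_div_iff₀ (by positivity) two_pos]
    nlinarith
  obtain ⟨S, hS⟩ : ∃ S : Finset ℤ,
      W - ε / (2 * (C₀ ^ 2 * Cc)) < ∑ k ∈ S, 14 / (1 + (k : ℝ) ^ 2) :=
    ((summable_weight.hasSum).eventually (Ioi_mem_nhds
      (show W - ε / (2 * (C₀ ^ 2 * Cc)) < W by
        linarith [show 0 < ε / (2 * (C₀ ^ 2 * Cc)) by positivity]))).exists
  set T := ∑ k ∈ S, 2 * π * (|(k : ℝ)| + 1) with hT
  refine ⟨η, hη, T, ?_⟩
  filter_upwards [eventually_norm_LSeries_le, self_mem_nhdsWithin, eventually_lt_one_add 1 one_pos]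
    with σ hC hσ hσ2 a ha hsmall
  rw [Set.mem_Ioi] at hσ
  set w : ℤ → ℝ := fun k => if k ∈ S then η / (σ - 1) else C₀ / (σ - 1) with hw
  set g : ℤ → ℝ := fun k => if k ∈ S then 14 / (1 + (k : ℝ) ^ 2) else 0 with hgdef
  have hg : HasSum g (∑ k ∈ S, 14 / (1 + (k : ℝ) ^ 2)) := by
    have h := hasSum_sum_of_ne_finset_zero (f := g) (s := S)
      (L := SummationFilter.unconditional ℤ) fun k hk => if_neg hk
    rwa [Finset.sum_congr rfl (g := fun k : ℤ => 14 / (1 + (k : ℝ) ^ 2))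
      fun k hk => if_pos hk] at h
  have hh := ((summable_weight.hasSum.mul_left (η ^ 2)).add
    ((summable_weight.hasSum.sub hg).mul_left (C₀ ^ 2))).div_const ((σ - 1) ^ 2)
  have hle : ∀ k : ℤ, 14 / (1 + (k : ℝ) ^ 2) * w k ^ 2 ≤
      (η ^ 2 * (14 / (1 + (k : ℝ) ^ 2)) + C₀ ^ 2 * (14 / (1 + (k : ℝ) ^ 2) - g k)) /
        (σ - 1) ^ 2 := by
    intro k
    have h0 : 0 ≤ 14 / (1 + (k : ℝ) ^ 2) := by positivity
    simp only [hw, hgdef]
    split_ifs
    · rw [div_pow, sub_self, mul_zero, add_zero, mul_div_assoc', mul_comm (η ^ 2)]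
    · rw [div_pow, sub_zero, mul_div_assoc']
      gcongr
      nlinarith [sq_nonneg η]
  have hsum : Summable fun k : ℤ => 14 / (1 + (k : ℝ) ^ 2) * w k ^ 2 :=
    hh.summable.of_nonneg_of_le (fun k => by positivity) hle
  have hF : ∀ k : ℤ, ∀ ξ ∈ Set.Ioc (-1 / 2 + (k : ℝ)) (-1 / 2 + k + 1),
      ‖LSeries a (σ + (2 * π * ξ : ℝ) * Complex.I)‖ ≤ w k := by
    intro k ξ hξ
    simp only [hw]
    split_ifs with hk
    · have h1 : |2 * π * ξ| ≤ T := by
        rw [abs_mul, abs_of_pos (by positivity : 0 < 2 * π)]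
        refine le_trans ?_ (Finset.single_le_sum
          (f := fun k : ℤ => 2 * π * (|(k : ℝ)| + 1)) (fun i _ => by positivity) hk)
        refine mul_le_mul_of_nonneg_left ?_ (by positivity)
        obtain ⟨h1, h2⟩ := hξ
        exact abs_le.2 ⟨by linarith [neg_abs_le (k : ℝ)], by linarith [le_abs_self (k : ℝ)]⟩
      exact hsmall _ (abs_le.1 h1)
    · exact hC a ha _
  have hr : (1 : ℝ) < (1 + σ) / 2 := by linarith
  have hK := sum_norm_logTwist_le ha hr
  have h := (lintegral_LSeries_div_sq hK (by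
      have : 0 < (1 + σ) / 2 - 1 := by linarith
      positivity)
    (by linarith) (by linarith : (1 + σ) / 2 < σ)).symm.trans_le
      (lintegral_logTwist_le ha hσ (by linarith) hsum hF)
  rw [ENNReal.ofReal_le_ofReal_iff (mul_nonneg (tsum_nonneg fun k => by positivity)
    (by positivity [sub_pos.2 hσ]))] at h
  refine h.trans ?_
  refine (mul_le_mul_of_nonneg_right
    ((hsum.tsum_le_tsum hle hh.summable).trans_eq hh.tsum_eq) ?_).trans ?_
  · have : 0 < σ - 1 := by linarith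
    positivity
  have key : (η ^ 2 * W + C₀ ^ 2 * (W - ∑ k ∈ S, 14 / (1 + (k : ℝ) ^ 2))) * Cc ≤ ε := by
    have h2 : C₀ ^ 2 * Cc * (W - ∑ k ∈ S, 14 / (1 + (k : ℝ) ^ 2)) ≤ ε / 2 := by
      refine (mul_le_mul_of_nonneg_left (le_of_lt (by linarith : W - _ <
        ε / (2 * (C₀ ^ 2 * Cc)))) (by positivity)).trans_eq ?_
      field_simp
    nlinarith
  calc _ = (η ^ 2 * W + C₀ ^ 2 * (W - ∑ k ∈ S, 14 / (1 + (k : ℝ) ^ 2))) * Cc / (σ - 1) ^ 3 := by
        have : σ - 1 ≠ 0 := by linarith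
        rw [hCc, hW]
        field_simp
    _ ≤ _ := by
        have : 0 < σ - 1 := by linarith
        gcongr

/-- The discrete partial sums are bounded by the integral. -/
theorem sum_sq_mul_exp_le (f : ℕ → ℂ) {σ : ℝ} (hσ : 0 ≤ σ)
    (hi : Integrable fun u => ‖expSum f σ u‖ ^ 2) (X : ℕ) :
    ∑ n ∈ Finset.Icc 1 X, ‖partialSum f n‖ ^ 2 *
        Real.exp (-(2 * σ * Real.log (n + 1))) / (n + 1) ≤
      ∫ u, ‖expSum f σ u‖ ^ 2 := by
  have hmono : Monotone fun n : ℕ => Real.log n := by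
    intro m n h
    rcases Nat.eq_zero_or_pos m with rfl | hm
    · simpa using Real.log_natCast_nonneg n
    · exact Real.log_le_log (by exact_mod_cast hm) (by exact_mod_cast h)
  have hdis : Pairwise (Function.onFun Disjoint
      fun n : ℕ => Set.Ioo (Real.log n) (Real.log (n + 1 : ℕ))) :=
    fun m n hmn => (hmono.pairwise_disjoint_on_Ioc_succ hmn).mono
      Set.Ioo_subset_Ioc_self Set.Ioo_subset_Ioc_self
  refine le_trans ?_ (setIntegral_le_integral hi (ae_of_all _ fun u => by positivity)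
    (s := ⋃ n ∈ Finset.Icc 1 X, Set.Ioo (Real.log n) (Real.log (n + 1 : ℕ))))
  rw [integral_biUnion_finset _ (fun n _ => measurableSet_Ioo) (hdis.set_pairwise _)
    (fun n _ => hi.integrableOn)]
  refine Finset.sum_le_sum fun n hn => ?_
  rw [Finset.mem_Icc] at hn
  have hn0 : (1 : ℝ) ≤ n := by exact_mod_cast hn.1
  have hlen : 1 / ((n : ℝ) + 1) ≤ Real.log (n + 1) - Real.log n := by
    rw [← Real.log_div (by positivity) (by positivity)]
    refine le_trans (le_of_eq ?_)
      (Real.one_sub_inv_le_log_of_pos (show (0 : ℝ) < ((n : ℝ) + 1) / n by positivity))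
    field_simp
    ring
  calc ‖partialSum f n‖ ^ 2 * Real.exp (-(2 * σ * Real.log (n + 1))) / (n + 1)
      = ‖partialSum f n‖ ^ 2 * Real.exp (-(2 * σ * Real.log (n + 1))) * (1 / ((n : ℝ) + 1)) := by
        ring
    _ ≤ ‖partialSum f n‖ ^ 2 * Real.exp (-(2 * σ * Real.log (n + 1))) *
        (Real.log (n + 1) - Real.log n) := by gcongr
    _ = ∫ _u in Set.Ioo (Real.log n) (Real.log (n + 1 : ℕ)),
        ‖partialSum f n‖ ^ 2 * Real.exp (-(2 * σ * Real.log (n + 1))) := by
        rw [setIntegral_const, Real.volume_real_Ioo_of_le (hmono n.le_succ), smul_eq_mul]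
        push_cast
        ring
    _ ≤ _ := by
        refine setIntegral_mono_on (integrableOn_const (by simp)) hi.integrableOn
          measurableSet_Ioo fun u hu => ?_
        obtain ⟨h1, h2⟩ := hu
        have hu0 : 0 < u := lt_of_le_of_lt (Real.log_natCast_nonneg n) h1
        have hfl : ⌊Real.exp u⌋₊ = n := by
          rw [Nat.floor_eq_iff (Real.exp_nonneg u)]
          refine ⟨?_, ?_⟩
          · rw [← Real.exp_log (by positivity : (0 : ℝ) < n)]
            exact Real.exp_le_exp.2 h1.le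
          · have := Real.exp_lt_exp.2 h2
            rw [Real.exp_log (by positivity)] at this
            exact_mod_cast this
        rw [expSum, Set.indicator_of_mem (Set.mem_Ioi.2 hu0), hfl, norm_mul, Complex.norm_real,
          Real.norm_of_nonneg (Real.exp_nonneg _), mul_pow, ← Real.exp_nat_mul]
        push_cast at h2
        refine mul_le_mul_of_nonneg_left (Real.exp_le_exp.2 ?_) (sq_nonneg _)
        push_cast
        nlinarith

theorem tendsto_one_add_inv_log :
    Tendsto (fun X : ℕ => 1 + 1 / Real.log X) atTop (𝓝[>] (1 : ℝ)) := by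
  have h : Tendsto (fun X : ℕ => Real.log X) atTop atTop :=
    Real.tendsto_log_atTop.comp tendsto_natCast_atTop_atTop
  refine tendsto_nhdsWithin_iff.2 ⟨?_, ?_⟩
  · simpa using (tendsto_const_nhds (x := (1 : ℝ))).add (h.inv_tendsto_atTop)
  · filter_upwards [h.eventually_gt_atTop 0] with X hX
    rw [Set.mem_Ioi]
    linarith [one_div_pos.2 hX]

/-- The series is small at `1 + 1 / log X + i t`, `|t| ≤ T`. -/
def SmallNear (a : ℕ →*₀ ℂ) (η T : ℝ) (X : ℕ) : Prop :=
  ∀ t ∈ Set.Icc (-T) T,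
    ‖LSeries a (((1 + 1 / Real.log X : ℝ) : ℂ) + t * Complex.I)‖ ≤ η * Real.log X

/-- **The logarithmic mean square of the partial sums of `a n log n`.** -/
theorem exists_sum_partialSum_sq_le {ε : ℝ} (hε : 0 < ε) :
    ∃ η, 0 < η ∧ ∃ T : ℝ, ∀ᶠ X : ℕ in atTop, ∀ a : ℕ →*₀ ℂ, (∀ n, ‖a n‖ ≤ 1) →
      SmallNear a η T X → ∑ n ∈ Finset.Icc 1 X,
        ‖partialSum (logTwist a) n‖ ^ 2 / (n : ℝ) ^ 3 ≤ ε * Real.log X ^ 3 := by
  set C := Real.exp (5 * Real.log 2 + 2) with hC
  obtain ⟨η, hη, T, hT⟩ :=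
    exists_integral_logTwist_small (div_pos hε (Real.exp_pos (5 * Real.log 2 + 2)))
  refine ⟨η, hη, T, ?_⟩
  filter_upwards [tendsto_one_add_inv_log.eventually hT, eventually_ge_atTop 3]
    with X hX hX3 a ha hsmall
  have hL : 1 ≤ Real.log X := by
    rw [Real.le_log_iff_exp_le (by positivity)]
    exact Real.exp_one_lt_three.le.trans (by exact_mod_cast hX3)
  set σ := 1 + 1 / Real.log X with hσdef
  have hσ : 1 < σ := by linarith [one_div_pos.2 (lt_of_lt_of_le one_pos hL)]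
  have hr : (1 : ℝ) < (1 + σ) / 2 := by linarith
  have hi := integrable_norm_expSum_sq (σ := σ) (sum_norm_logTwist_le ha hr) (by
    have : 0 < (1 + σ) / 2 - 1 := by linarith
    positivity) (by linarith) (by linarith)
  have h2 : ∀ n ∈ Finset.Icc 1 X, ‖partialSum (logTwist a) n‖ ^ 2 / (n : ℝ) ^ 3 ≤
      C * (‖partialSum (logTwist a) n‖ ^ 2 *
        Real.exp (-(2 * σ * Real.log (n + 1))) / (n + 1)) := by
    intro n hn
    rw [Finset.mem_Icc] at hn
    have hn0 : (1 : ℝ) ≤ n := by exact_mod_cast hn.1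
    have hlog1 : Real.log (n + 1) ≤ Real.log 2 + Real.log n := by
      rw [← Real.log_mul two_ne_zero (by positivity)]
      exact Real.log_le_log (by positivity) (by linarith)
    have hlog2 : Real.log n ≤ Real.log X :=
      Real.log_le_log (by positivity) (by exact_mod_cast hn.2)
    have hlog3 : (σ - 1) * Real.log n ≤ 1 := by
      rw [hσdef, add_sub_cancel_left, one_div, ← div_eq_inv_mul, div_le_one (by linarith)]
      exact hlog2
    have hσ2 : σ ≤ 2 := by
      rw [hσdef]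
      linarith [(div_le_one (by linarith : 0 < Real.log X)).2 hL]
    have key : ((n : ℝ) ^ 3)⁻¹ ≤ C * (Real.exp (-(2 * σ * Real.log (n + 1))) / (n + 1)) := by
      rw [← Real.exp_log (by positivity : 0 < ((n : ℝ) ^ 3)⁻¹), Real.log_inv, Real.log_pow]
      conv_rhs => arg 2; arg 2; rw [← Real.exp_log (by positivity : (0 : ℝ) < (n : ℝ) + 1)]
      rw [hC, ← Real.exp_sub, ← Real.exp_add, Real.exp_le_exp]
      push_cast
      have h0 : 0 ≤ Real.log 2 := Real.log_nonneg (by norm_num)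
      nlinarith [mul_le_mul_of_nonneg_left hlog1 (by linarith : (0 : ℝ) ≤ 2 * σ + 1)]
    rw [div_eq_mul_inv, mul_div_assoc (‖partialSum (logTwist a) n‖ ^ 2)]
    refine (mul_le_mul_of_nonneg_left key (sq_nonneg _)).trans_eq ?_
    ring
  refine (Finset.sum_le_sum h2).trans ?_
  rw [← Finset.mul_sum]
  refine (mul_le_mul_of_nonneg_left ((sum_sq_mul_exp_le _ (by linarith) hi X).trans
    (hX a ha fun t ht => (hsmall t ht).trans_eq (by
      rw [hσdef, add_sub_cancel_left, div_div_eq_mul_div, div_one])))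
    (Real.exp_nonneg _)).trans_eq ?_
  rw [add_sub_cancel_left, one_div, inv_pow, div_inv_eq_mul, ← mul_assoc,
    mul_div_cancel₀ _ (Real.exp_ne_zero _)]

end FA.Halasz
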