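import Fermat.Agent.Halasz.Euler
import Fermat.Agent.Halasz.Laplace
import Mathlib.NumberTheory.Chebyshev
import Mathlib.NumberTheory.LSeries.Convolution
import Mathlib.Analysis.PSeries
import Mathlib.Algebra.Order.ToIntervalMod
import Mathlib.Analysis.Real.Pi.Bounds

/-!
# The mean square of the series of `a n log n`

Since `a n log n` is the convolution of `a n Λ n` with `a`, its Dirichlet series is the product
of two series. Plancherel bounds the first in mean square on every unit interval, and the second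
is `o (1 / (σ - 1))` on bounded ranges, so the whole is `o ((σ - 1) ^ (-3))` in mean square.
-/

set_option autoImplicit false

noncomputable section

namespace FA.Halasz

open MeasureTheory Complex Filter Topology
open scoped ENNReal Real ArithmeticFunction.vonMangoldt LSeries.notation

/-- `n ↦ a n log n`. -/
def logTwist (a : ℕ →*₀ ℂ) (n : ℕ) : ℂ := a n * (Real.log n : ℂ)

/-- `n ↦ a n Λ n`. -/
def mangoldtTwist (a : ℕ →*₀ ℂ) (n : ℕ) : ℂ := a n * (Λ n : ℂ)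

theorem mangoldtTwist_convolution (a : ℕ →*₀ ℂ) : mangoldtTwist a ⍟ ⇑a = logTwist a := by
  rw [LSeries.convolution_def]
  ext n
  rw [logTwist, ← ArithmeticFunction.vonMangoldt_sum,
    ← Nat.sum_divisorsAntidiagonal (fun i _ => Λ i), ofReal_sum, Finset.mul_sum]
  refine Finset.sum_congr rfl fun x hx => ?_
  rw [mangoldtTwist, ← (Nat.mem_divisorsAntidiagonal.1 hx).1, map_mul]
  ring

variable {a : ℕ →*₀ ℂ}

theorem sum_norm_mangoldtTwist_le (ha : ∀ n, ‖a n‖ ≤ 1) (n : ℕ) :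
    ∑ k ∈ Finset.Icc 1 n, ‖mangoldtTwist a k‖ ≤ (Real.log 4 + 4) * (n : ℝ) ^ (1 : ℝ) := by
  rw [Real.rpow_one]
  refine le_trans ?_ (Chebyshev.psi_le_const_mul_self n.cast_nonneg)
  rw [Chebyshev.psi, Nat.floor_natCast, ← Finset.Icc_add_one_left_eq_Ioc, zero_add]
  refine Finset.sum_le_sum fun k _ => ?_
  rw [mangoldtTwist, norm_mul, norm_real, Real.norm_of_nonneg ArithmeticFunction.vonMangoldt_nonneg]
  exact mul_le_of_le_one_left ArithmeticFunction.vonMangoldt_nonneg (ha k)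

theorem sum_norm_logTwist_le (ha : ∀ n, ‖a n‖ ≤ 1) {r : ℝ} (hr : 1 < r) (n : ℕ) :
    ∑ k ∈ Finset.Icc 1 n, ‖logTwist a k‖ ≤ 1 / (r - 1) * (n : ℝ) ^ r := by
  have h1 : ∀ k ∈ Finset.Icc 1 n, ‖logTwist a k‖ ≤ (n : ℝ) ^ (r - 1) / (r - 1) := by
    intro k hk
    rw [Finset.mem_Icc] at hk
    rw [logTwist, norm_mul, norm_real, Real.norm_of_nonneg (Real.log_natCast_nonneg k)]
    refine (mul_le_of_le_one_left (Real.log_natCast_nonneg k) (ha k)).trans ?_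
    refine (Real.log_natCast_le_rpow_div k (sub_pos.2 hr)).trans ?_
    exact div_le_div_of_nonneg_right
      (Real.rpow_le_rpow k.cast_nonneg (by exact_mod_cast hk.2) (by linarith)) (by linarith)
  refine (Finset.sum_le_card_nsmul _ _ _ h1).trans_eq ?_
  rw [Nat.card_Icc, Nat.add_sub_cancel, nsmul_eq_mul]
  rcases Nat.eq_zero_or_pos n with rfl | hn
  · simp [Real.zero_rpow (by linarith : r ≠ 0)]
  · rw [Real.rpow_sub_one (by positivity)]
    field_simp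

theorem LSeriesSummable_mangoldtTwist (ha : ∀ n, ‖a n‖ ≤ 1) {s : ℂ} (hs : 1 < s.re) :
    LSeriesSummable (mangoldtTwist a) s := by
  refine LSeriesSummable_of_sum_norm_bigO (Asymptotics.IsBigO.of_bound (Real.log 4 + 4)
    (Eventually.of_forall fun n => ?_)) zero_le_one hs
  rw [Real.norm_of_nonneg (Finset.sum_nonneg fun k _ => norm_nonneg _),
    Real.norm_of_nonneg (by positivity)]
  exact sum_norm_mangoldtTwist_le ha n

theorem LSeries_logTwist (ha : ∀ n, ‖a n‖ ≤ 1) {s : ℂ} (hs : 1 < s.re) :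
    LSeries (logTwist a) s = LSeries (mangoldtTwist a) s * LSeries a s := by
  rw [← mangoldtTwist_convolution]
  exact LSeries_convolution' (LSeriesSummable_mangoldtTwist ha hs)
    (LSeriesSummable_of_bounded_of_one_lt_re (fun n _ => ha n) hs)

theorem LSeries_mangoldtTwist_twist (a : ℕ →*₀ ℂ) (w s : ℂ) :
    LSeries (mangoldtTwist (twist a w)) s = LSeries (mangoldtTwist a) (s + w) := by
  refine tsum_congr fun n => ?_
  rcases eq_or_ne n 0 with rfl | hn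
  · simp
  · rw [LSeries.term_of_ne_zero hn, LSeries.term_of_ne_zero hn, mangoldtTwist, mangoldtTwist,
      twist_apply, cpow_neg, cpow_add _ _ (Nat.cast_ne_zero.2 hn)]
    field_simp

theorem norm_twist_I_le (ha : ∀ n, ‖a n‖ ≤ 1) (x : ℝ) (n : ℕ) :
    ‖twist a (x * I) n‖ ≤ 1 := by
  rw [twist_apply, norm_mul]
  rcases Nat.eq_zero_or_pos n with rfl | hn
  · simp
  · rw [norm_natCast_cpow_of_pos hn]
    simpa using ha n

/-- The mean square of `L (a Λ) (σ + 2 π i ξ) / (σ + 2 π i (ξ - k))`. -/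
theorem lintegral_mangoldt_le (ha : ∀ n, ‖a n‖ ≤ 1) {σ : ℝ} (hσ : 1 < σ) (k : ℤ) :
    ∫⁻ ξ : ℝ, ENNReal.ofReal
        (‖LSeries (mangoldtTwist a) (σ + (2 * π * ξ : ℝ) * I) /
          (σ + (2 * π * (ξ - k) : ℝ) * I)‖ ^ 2) ≤
      ENNReal.ofReal ((Real.log 4 + 4) ^ 2 / (2 * (σ - 1))) := by
  have hb : ∀ n, ‖twist a ((2 * π * k : ℝ) * I) n‖ ≤ 1 := norm_twist_I_le ha _
  have hK := sum_norm_mangoldtTwist_le hb
  have hK0 : 0 ≤ Real.log 4 + 4 := by positivity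
  refine le_of_eq_of_le ?_ ((lintegral_LSeries_div_sq hK hK0 zero_le_one hσ).trans_le
    (ENNReal.ofReal_le_ofReal (integral_norm_expSum_sq_le hK hK0 zero_le_one hσ)))
  conv_rhs => rw [← lintegral_sub_right_eq_self _ (k : ℝ)]
  refine lintegral_congr fun ξ => ?_
  rw [LSeries_mangoldtTwist_twist]
  push_cast
  ring_nf

theorem summable_weight : Summable fun k : ℤ => 14 / (1 + (k : ℝ) ^ 2) := by
  refine Summable.of_nonneg_of_le (fun k => by positivity) (fun k => ?_)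
    ((((Real.summable_one_div_int_pow.2 one_lt_two).add
      (hasSum_ite_eq (0 : ℤ) (1 : ℝ)).summable)).mul_left (14 : ℝ))
  rcases eq_or_ne k 0 with rfl | hk
  · simp
  · have h : (0 : ℝ) < (k : ℝ) ^ 2 := by positivity
    rw [if_neg hk, add_zero, ← mul_div_assoc, mul_one]
    gcongr
    linarith

theorem norm_add_mul_I_sq (σ y : ℝ) : ‖(σ : ℂ) + y * I‖ ^ 2 = σ ^ 2 + y ^ 2 := by
  rw [← normSq_eq_norm_sq, normSq_add_mul_I]

/-- On the `k`-th unit interval the weight `1 / ‖σ + 2 π i ξ‖ ²` is at most `14 / (1 + k ²)`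
times the one centred at `k`. -/
theorem div_norm_sq_le {σ ξ : ℝ} (hσ1 : 1 < σ) (hσ2 : σ ≤ 2) (k : ℤ)
    (hξ : ξ ∈ Set.Ioc (-1 / 2 + (k : ℝ)) (-1 / 2 + k + 1)) (z : ℂ) :
    ‖z / (σ + (2 * π * ξ : ℝ) * I)‖ ^ 2 ≤
      14 / (1 + (k : ℝ) ^ 2) * ‖z / (σ + (2 * π * (ξ - k) : ℝ) * I)‖ ^ 2 := by
  obtain ⟨h1, h2⟩ := hξ
  simp only [norm_div, div_pow, norm_add_mul_I_sq]
  have hk : ((k : ℝ)) ^ 2 ≤ 36 * ξ ^ 2 := by
    rcases lt_trichotomy k 0 with hk | hk | hk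
    · have : (k : ℝ) ≤ -1 := by exact_mod_cast (show k ≤ -1 by omega)
      nlinarith
    · subst hk
      simp only [Int.cast_zero, ne_eq, OfNat.ofNat_ne_zero, not_false_eq_true, zero_pow]
      positivity
    · have : (1 : ℝ) ≤ k := by exact_mod_cast (show (1 : ℤ) ≤ k by omega)
      nlinarith
  have hπ : 9 ≤ π ^ 2 := by nlinarith [Real.pi_gt_three]
  have hπ' : π ^ 2 ≤ 10 := by nlinarith [Real.pi_lt_d2, Real.pi_pos]
  have hd : (ξ - k) ^ 2 ≤ 1 / 4 := by nlinarith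
  have hA : 1 + (k : ℝ) ^ 2 ≤ σ ^ 2 + (2 * π * ξ) ^ 2 := by
    nlinarith [mul_le_mul_of_nonneg_right hπ (sq_nonneg ξ)]
  have hB : σ ^ 2 + (2 * π * (ξ - k)) ^ 2 ≤ 14 := by
    nlinarith [mul_le_mul hπ' hd (sq_nonneg _) (by norm_num)]
  calc ‖z‖ ^ 2 / (σ ^ 2 + (2 * π * ξ) ^ 2) ≤ ‖z‖ ^ 2 / (1 + (k : ℝ) ^ 2) := by gcongr
    _ = 14 / (1 + (k : ℝ) ^ 2) * (‖z‖ ^ 2 / 14) := by ring
    _ ≤ _ := by gcongr

/-- If the series of `a` is bounded by `w k` on each unit interval, the mean square of the series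
of `a n log n` is bounded by `∑ₖ 14 w k ² / (1 + k ²)`. -/
theorem lintegral_logTwist_le (ha : ∀ n, ‖a n‖ ≤ 1) {σ : ℝ} (hσ1 : 1 < σ) (hσ2 : σ ≤ 2)
    {w : ℤ → ℝ} (hw : Summable fun k : ℤ => 14 / (1 + (k : ℝ) ^ 2) * w k ^ 2)
    (hF : ∀ k : ℤ, ∀ ξ ∈ Set.Ioc (-1 / 2 + (k : ℝ)) (-1 / 2 + k + 1),
      ‖LSeries a (σ + (2 * π * ξ : ℝ) * I)‖ ≤ w k) :
    ∫⁻ ξ : ℝ, ENNReal.ofReal
        (‖LSeries (logTwist a) (σ + (2 * π * ξ : ℝ) * I) / (σ + (2 * π * ξ : ℝ) * I)‖ ^ 2) ≤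
      ENNReal.ofReal ((∑' k : ℤ, 14 / (1 + (k : ℝ) ^ 2) * w k ^ 2) *
        ((Real.log 4 + 4) ^ 2 / (2 * (σ - 1)))) := by
  rw [← setLIntegral_univ, ← iUnion_Ioc_add_intCast (-1 / 2 : ℝ),
    lintegral_iUnion (fun k => measurableSet_Ioc) (Set.pairwise_disjoint_Ioc_add_intCast _),
    ENNReal.ofReal_mul (tsum_nonneg fun k => by positivity),
    ENNReal.ofReal_tsum_of_nonneg (fun k => by positivity) hw, ← ENNReal.tsum_mul_right]
  refine ENNReal.tsum_le_tsum fun k => ?_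
  calc ∫⁻ ξ in Set.Ioc (-1 / 2 + (k : ℝ)) (-1 / 2 + k + 1), ENNReal.ofReal
        (‖LSeries (logTwist a) (σ + (2 * π * ξ : ℝ) * I) / (σ + (2 * π * ξ : ℝ) * I)‖ ^ 2)
      ≤ ∫⁻ ξ in Set.Ioc (-1 / 2 + (k : ℝ)) (-1 / 2 + k + 1),
        ENNReal.ofReal (14 / (1 + (k : ℝ) ^ 2) * w k ^ 2) *
        ENNReal.ofReal (‖LSeries (mangoldtTwist a) (σ + (2 * π * ξ : ℝ) * I) /
          (σ + (2 * π * (ξ - k) : ℝ) * I)‖ ^ 2) := by
        refine setLIntegral_mono' measurableSet_Ioc fun ξ hξ => ?_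
        rw [← ENNReal.ofReal_mul (by positivity), LSeries_logTwist ha (by simpa using hσ1)]
        refine ENNReal.ofReal_le_ofReal ((div_norm_sq_le hσ1 hσ2 k hξ _).trans ?_)
        rw [mul_div_right_comm, norm_mul, mul_pow]
        calc 14 / (1 + (k : ℝ) ^ 2) * (_ * ‖LSeries a (σ + (2 * π * ξ : ℝ) * I)‖ ^ 2)
            ≤ 14 / (1 + (k : ℝ) ^ 2) * (_ * w k ^ 2) := mul_le_mul_of_nonneg_left
              (mul_le_mul_of_nonneg_left (pow_le_pow_left₀ (norm_nonneg _) (hF k ξ hξ) 2)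
                (sq_nonneg _)) (by positivity)
          _ = _ := by ring
    _ ≤ ∫⁻ ξ : ℝ, ENNReal.ofReal (14 / (1 + (k : ℝ) ^ 2) * w k ^ 2) *
        ENNReal.ofReal (‖LSeries (mangoldtTwist a) (σ + (2 * π * ξ : ℝ) * I) /
          (σ + (2 * π * (ξ - k) : ℝ) * I)‖ ^ 2) := setLIntegral_le_lintegral _ _
    _ ≤ _ := by
        rw [lintegral_const_mul' _ _ ENNReal.ofReal_ne_top]
        exact mul_le_mul' le_rfl (lintegral_mangoldt_le ha hσ1 k)

end FA.Halasz
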